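import Fermat.Agent.CondLevel.Torsion
import Mathlib.NumberTheory.LSeries.PrimesInAP
import Mathlib.NumberTheory.LegendreSymbol.JacobiSymbol

/-!
`E[λ]` is irreducible for arbitrarily large primes `λ`: choose `λ` such that the discriminant of a
Frobenius polynomial is not a square modulo `λ`.
-/

set_option autoImplicit false

noncomputable section

open WeierstrassCurve WeierstrassCurve.Affine.Point
open scoped WeierstrassCurve.Affine

namespace Fermat.Agent.CondLevel

variable (W : WeierstrassCurve ℤ) (hΔ : W.Δ ≠ 0)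

include hΔ in
/-- An integer quadratic without a root modulo `p`, arising from Frobenius, excludes stable
lines. -/
theorem modRepIsIrreducible_of_frobenius (p : ℕ) [Fact p.Prime] {ℓ : ℕ} (hℓ : ℓ.Prime)
    (hℓp : ℓ ≠ p) (hgood : W.IsGoodPrimeFor ℓ)
    (hroot : ∀ c : ZMod p, c * c ≠ (W.apOfModel ℓ : ZMod p) * c - (ℓ : ZMod p)) :
    W.ModRepIsIrreducible p := by
  have hrank := finrank_tors W hΔ p
  have := moduleFinite_tors W hΔ p
  have hnt : Nontrivial (Tors W p) :=
    Module.nontrivial_of_finrank_pos (R := ZMod p) (by rw [hrank]; norm_num)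
  refine ⟨hnt, fun U hU => ?_⟩
  by_contra hcon
  push Not at hcon
  have hU1 : Module.finrank (ZMod p) U = 1 := by
    have hlt := Submodule.finrank_lt (K := ZMod p) hcon.2
    have hpos : Module.finrank (ZMod p) U ≠ 0 := fun h0 =>
      hcon.1 (Submodule.finrank_eq_zero.mp h0)
    rw [hrank] at hlt
    omega
  obtain ⟨v, hv0, hv⟩ := finrank_eq_one_iff'.mp hU1
  obtain ⟨A, σ, hA, hσ⟩ := Galois.exists_place_isFrobeniusAt hℓ
  obtain ⟨c, hc⟩ := hv ⟨σ • (v : Tors W p), hU σ _ v.2⟩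
  have hc' : rhoTors W p σ (v : Tors W p) = c • (v : Tors W p) := by
    rw [galoisRepModuleEnd_apply]
    exact (congrArg Subtype.val hc).symm
  have hq := LinearMap.congr_fun (frobenius_quadratic W hℓ
    (fun hd => hℓp ((Nat.prime_dvd_prime_iff_eq hℓ Fact.out).mp hd)) hgood hA hσ) (v : Tors W p)
  rw [sq, Module.End.mul_apply, LinearMap.sub_apply, LinearMap.smul_apply, LinearMap.smul_apply,
    Module.End.one_apply, hc', map_smul, hc', smul_smul, smul_smul, ← sub_smul] at hq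
  refine hroot c (sub_eq_zero.mp ((smul_eq_zero.mp ?_).resolve_right
    (fun h => hv0 (Subtype.ext h))))
  rw [sub_smul, hq, sub_self]

/-- There are arbitrarily large primes modulo which a given negative integer is not a square. -/
theorem exists_prime_gt_not_isSquare_neg {m : ℕ} (hm : m ≠ 0) (B : ℕ) :
    ∃ p > B, p.Prime ∧ ¬ IsSquare (-(m : ℤ) : ZMod p) := by
  have : NeZero (4 * m) := ⟨by omega⟩
  obtain ⟨p, hpB, hp, hpm⟩ :=
    Nat.forall_exists_prime_gt_and_eq_mod (q := 4 * m) (a := -1) isUnit_one.neg (max B 2)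
  refine ⟨p, by omega, hp, ?_⟩
  have hodd : Odd p := hp.odd_of_ne_two (by omega)
  have hmod : p % (4 * m) = 4 * m - 1 := by
    have h1 : ((p + 1 : ℕ) : ZMod (4 * m)) = 0 := by push_cast; rw [hpm]; ring
    rw [ZMod.natCast_eq_zero_iff] at h1
    obtain ⟨k, hk⟩ := h1
    have hk1 : 1 ≤ k := by rcases k with _ | k <;> omega
    obtain ⟨j, rfl⟩ : ∃ j, k = j + 1 := ⟨k - 1, by omega⟩
    rw [mul_add, mul_one] at hk
    rw [show p = (4 * m - 1) + (4 * m) * j by omega, Nat.add_mul_mod_self_left,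
      Nat.mod_eq_of_lt (by omega)]
  have hodd' : Odd (4 * m - 1) := ⟨2 * m - 1, by omega⟩
  have hj : jacobiSym (-(m : ℤ)) p = -1 := by
    rw [jacobiSym.mod_right _ hodd, Int.natAbs_neg, Int.natAbs_natCast, hmod]
    have h4 : jacobiSym 4 (4 * m - 1) = 1 := by
      rw [show (4 : ℤ) = 2 ^ 2 by norm_num]
      exact jacobiSym.sq_one' ((Int.gcd_natCast_natCast 2 _).trans (Nat.coprime_two_left.mpr hodd'))
    have h1 : jacobiSym (-(m : ℤ) * 4) (4 * m - 1) = -1 := by
      rw [jacobiSym.mod_left,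
        show -(m : ℤ) * 4 = -1 + -1 * ((4 * m - 1 : ℕ) : ℤ) by
          push_cast [Nat.cast_sub (show 1 ≤ 4 * m by omega)]; ring,
        Int.add_mul_emod_self_right, ← jacobiSym.mod_left, jacobiSym.at_neg_one hodd']
      exact ZMod.χ₄_nat_three_mod_four (by omega)
    rwa [jacobiSym.mul_left, h4, mul_one] at h1
  simpa using ZMod.nonsquare_of_jacobiSym_eq_neg_one hj

include hΔ in
/-- `E[λ]` is irreducible for some prime `λ` above any bound. -/
theorem exists_prime_gt_modRepIsIrreducible (B : ℕ) :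
    ∃ p > B, p.Prime ∧ W.ModRepIsIrreducible p := by
  obtain ⟨ℓ, hℓB, hℓ⟩ := Nat.exists_infinite_primes (W.Δ.natAbs + 1)
  have hgood : W.IsGoodPrimeFor ℓ := fun hd => by
    have := Nat.le_of_dvd (Int.natAbs_pos.mpr hΔ) (Int.natCast_dvd.mp hd)
    omega
  have hle := ECFrob.apOfModel_sq_le W hℓ hgood
  have hne : (W.apOfModel ℓ) ^ 2 ≠ 4 * (ℓ : ℤ) := by
    intro h
    have h2 : (2 : ℤ) ∣ W.apOfModel ℓ := Int.prime_two.dvd_of_dvd_pow ⟨2 * ℓ, by rw [h]; ring⟩
    obtain ⟨b, hb⟩ := h2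
    have hb' : b.natAbs ^ 2 = ℓ := by
      have : b ^ 2 = (ℓ : ℤ) := by rw [hb] at h; linarith [h]
      rw [← Int.natAbs_pow, this, Int.natAbs_natCast]
    exact Nat.Prime.not_prime_pow (le_refl 2) (hb' ▸ hℓ)
  obtain ⟨m, hm⟩ : ∃ m : ℕ, 4 * (ℓ : ℤ) - (W.apOfModel ℓ) ^ 2 = m :=
    ⟨_, (Int.toNat_of_nonneg (by omega)).symm⟩
  obtain ⟨p, hpB, hp, hns⟩ := exists_prime_gt_not_isSquare_neg (m := m) (by omega) (max B ℓ)
  have : Fact p.Prime := ⟨hp⟩
  refine ⟨p, by omega, hp, modRepIsIrreducible_of_frobenius W hΔ p hℓ (by omega) hgood ?_⟩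
  intro c hc
  refine hns ⟨2 * c - (W.apOfModel ℓ : ZMod p), ?_⟩
  have hm' : (4 * (ℓ : ZMod p) - (W.apOfModel ℓ : ZMod p) ^ 2) = (m : ZMod p) := by
    exact_mod_cast congrArg (fun z : ℤ => (z : ZMod p)) hm
  push_cast
  linear_combination (-4 : ZMod p) * hc + hm'

end Fermat.Agent.CondLevel
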