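import Fermat.Agent.CondLevel.Main
import Fermat.Agent.CondLevel.BigIrreducible

/-!
The conductor level from an eigenform of arbitrary level: the exponents at least three are removed
by the same argument as the exponent two.
-/

set_option autoImplicit false
set_option linter.overlappingInstances false

noncomputable section

open Polynomial WeierstrassCurve CuspForm ModularFormClass

namespace Fermat.Agent.CondLevel

/-- The statement of S36 with the exponent condition `= 2` replaced by `E`. -/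
def CarayolNotUnipotentAt (E : ℕ → Prop) : Prop :=
  ∀ {M : ℕ} [NeZero M] {g : CuspForm (CongruenceSubgroup.Gamma0 M) 2} (_ : g.IsNewform)
    (lam : ℕ) [Fact lam.Prime]
    (S : Finset ℕ)
    (O' : Type) [CommRing O'] [IsDomain O'] [IsDiscreteValuationRing O']
    [IsAdicComplete (IsLocalRing.maximalIdeal O') O'] [Finite (IsLocalRing.ResidueField O')]
    [CharZero O'] (_ : (lam : O') ∈ IsLocalRing.maximalIdeal O')
    (_ : lam ≠ 2)
    (chig : CuspForm.heckeAlgebra M 2 (↑S : Set ℕ) →+* ℂ)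
    (_ : ∀ (ℓ : ℕ) (hℓ : ℓ.Prime) (hℓM : ¬ ℓ ∣ M) (hℓS : ℓ ∉ (↑S : Set ℕ)),
      chig (CuspForm.heckeAlgebra.T hℓ hℓM hℓS) = ModularFormClass.qCoeff g ℓ)
    (iota : chig.range →+* O')
    (_ : lam ∈ S) (_ : ∀ q : ℕ, q.Prime → q ∣ M → q ∈ S)
    (_ : ∀ (O'' : Type) [CommRing O''] [IsDomain O''] [IsDiscreteValuationRing O'']
      [IsAdicComplete (IsLocalRing.maximalIdeal O'') O''] [Finite (IsLocalRing.ResidueField O'')] [CharZero O'']
      [Algebra O' O''] [Module.Finite O' O''] [IsLocalHom (algebraMap O' O'')],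
      Function.Injective (algebraMap O' O'') → ∀ (ρ : GaloisRepAdic O''),
      (∀ (ℓ : ℕ) (hℓ : ℓ.Prime) (_ : ℓ ≠ lam) (hℓM : ¬ ℓ ∣ M) (hℓS : ℓ ∉ (↑S : Set ℕ)),
        ∀ A : ValuationSubring (AlgebraicClosure ℚ), A.LiesOverPrime ℓ →
          ∀ σ : AlgebraicClosure ℚ ≃ₐ[ℚ] AlgebraicClosure ℚ, A.IsFrobeniusAt σ ℓ →
            LinearMap.charpoly (ρ.ρ σ) =
              X ^ 2 - C (algebraMap O' O'' ((iota.comp chig.rangeRestrict) (CuspForm.heckeAlgebra.T hℓ hℓM hℓS))) * X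
                + C ((ℓ : O'')))
      → ρ.residual.IsAbsolutelyIrreducible ∧ ρ.residual.IsOdd),
    ∃ (O'' : Type) (_ : CommRing O'') (_ : IsDomain O'') (_ : IsDiscreteValuationRing O'')
      (_ : IsAdicComplete (IsLocalRing.maximalIdeal O'') O'') (_ : Finite (IsLocalRing.ResidueField O''))
      (_ : CharZero O'') (_ : Algebra O' O'') (_ : Module.Finite O' O'') (_ : IsLocalHom (algebraMap O' O'')),
      Function.Injective (algebraMap O' O'') ∧
      ∃ ρ : GaloisRepAdic O'',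
        (∀ (ℓ : ℕ) (hℓ : ℓ.Prime) (hℓM : ¬ ℓ ∣ M) (hℓS : ℓ ∉ (↑S : Set ℕ)),
          ∀ A : ValuationSubring (AlgebraicClosure ℚ), A.LiesOverPrime ℓ →
            ∀ σ : AlgebraicClosure ℚ ≃ₐ[ℚ] AlgebraicClosure ℚ, A.IsFrobeniusAt σ ℓ →
              LinearMap.charpoly (ρ.ρ σ) =
                X ^ 2 - C (algebraMap O' O'' ((iota.comp chig.rangeRestrict) (CuspForm.heckeAlgebra.T hℓ hℓM hℓS))) * X
                  + C ((ℓ : O''))) ∧
        (∀ q : ℕ, q.Prime → q ≠ lam → E (M.factorization q) → ¬ ρ.IsUnipotentOnInertiaAt q)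

/-- No prime other than `p` has an exponent satisfying `E` in the level of `g`. -/
theorem Setup.not_exponent {W : WeierstrassCurve ℤ} {N M : ℕ}
    {g : CuspForm (CongruenceSubgroup.Gamma0 M) 2} (h : Setup W N M g) [NeZero M]
    {E : ℕ → Prop} (hE : CarayolNotUnipotentAt E) {p : ℕ}
    [Fact p.Prime] (hp2 : p ≠ 2) (hirr : W.ModRepIsIrreducible p) {q : ℕ} (hq : q.Prime)
    (hqp : q ≠ p) : ¬ E (M.factorization q) := by
  intro hv
  obtain ⟨chig, iota, hdata⟩ := h.exists_adicData p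
  have mkF : ∀ (O : Type) [CommRing O] [IsDomain O] [IsDiscreteValuationRing O] [CharZero O]
      [Algebra ℤ_[p] O] (ρ : GaloisRepAdic O),
      (∀ (ℓ : ℕ) (hℓ : ℓ.Prime) (_ : ℓ ≠ p) (hℓM : ¬ ℓ ∣ M)
        (hℓS : ℓ ∉ (↑(insert p N.primeFactors) : Set ℕ)),
        ∀ A : ValuationSubring (AlgebraicClosure ℚ), A.LiesOverPrime ℓ →
          ∀ σ : AlgebraicClosure ℚ ≃ₐ[ℚ] AlgebraicClosure ℚ, A.IsFrobeniusAt σ ℓ →
            LinearMap.charpoly (ρ.ρ σ) = X ^ 2 - C (algebraMap ℤ_[p] O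
              ((iota.comp chig.rangeRestrict) (CuspForm.heckeAlgebra.T hℓ hℓM hℓS))) * X
              + C ((ℓ : O))) →
      HasFrobeniusOf W ρ (insert p N.primeFactors) := by
    intro O _ _ _ _ _ ρ hρ _ _ _ _ _ σ _ ℓ hℓ hℓS A hA hσ
    have hℓM : ¬ ℓ ∣ M := fun hd => hℓS
      (Finset.mem_insert_of_mem (Nat.mem_primeFactors.mpr ⟨hℓ, hd.trans h.dvd, h.level_ne⟩))
    rw [hρ ℓ hℓ (fun he => hℓS (he ▸ Finset.mem_insert_self _ _)) hℓM (by simpa using hℓS) A hA σ
      hσ, (hdata ℓ hℓ hℓM _).2, map_intCast]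
  have hmem : ∀ (O : Type) [CommRing O] [IsLocalRing O] [Algebra ℤ_[p] O]
      [IsLocalHom (algebraMap ℤ_[p] O)], (p : O) ∈ IsLocalRing.maximalIdeal O := by
    intro O _ _ _ _
    rw [← map_natCast (algebraMap ℤ_[p] O)]
    exact map_nonunit _ _ (natCast_mem_maximalIdeal_padicInt p)
  obtain ⟨O, _, _, _, _, _, _, _, _, _, -, ρ, hρ, hnu⟩ := hE h.newform p _ ℤ_[p]
    (natCast_mem_maximalIdeal_padicInt p) hp2 chig (fun ℓ hℓ hℓM hℓS => (hdata ℓ hℓ hℓM hℓS).1)
    iota (Finset.mem_insert_self _ _)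
    (fun r hr hd => Finset.mem_insert_of_mem
      (Nat.mem_primeFactors.mpr ⟨hr, hd.trans h.dvd, h.level_ne⟩))
    (by
      intro O _ _ _ _ _ _ _ _ _ _ ρ hρ
      have : CharP (IsLocalRing.ResidueField O) p := charP_residueField p (hmem O)
      refine residual_isAbsolutelyIrreducible W h.delta_ne p hp2 hirr ρ.residual fun σ => ?_
      rw [(trace_det_residual ρ σ).1, (trace_det_residual ρ σ).2]
      exact adic_residual_trace_det W h.delta_ne ρ p _ (Finset.mem_insert_self _ _)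
        (fun ℓ => h.bad_mem p) (mkF O ρ hρ) σ)
  exact hnu q hq hqp hv (isUnipotentOnInertiaAt W h.delta_ne ρ p (hmem O) hq hqp
    (h.semistable q hq) _ (Finset.mem_insert_self _ _) (fun ℓ => h.bad_mem p)
    (mkF O ρ fun ℓ hℓ _ hℓM hℓS => hρ ℓ hℓ hℓM hℓS))

/-- The exponents at least three: consequence of the fixed point theorem at level `qⁿ`. -/
abbrev CarayolNotUnipotentHigh : Prop := CarayolNotUnipotentAt (3 ≤ ·)

/-- A semistable model whose traces occur at some level is modular of conductor level. -/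
theorem conductorLevel_matching_arbitrary (h29 : ResidualAttachment) (h35 : SteinbergFrobenius)
    (h36 : CarayolNotUnipotent) (hhigh : CarayolNotUnipotentHigh)
    (W : WeierstrassCurve ℤ) (hΔ : W.Δ ≠ 0) (hss : W.IsSemistableModel)
    {N : ℕ} (hN : N ≠ 0) (f : CuspForm (CongruenceSubgroup.Gamma0 N) 2)
    (hf : f.IsNormalizedEigenform) (T : ℕ) (hT : T ≠ 0)
    (hfW : ∀ ℓ : ℕ, ℓ.Prime → W.IsGoodPrimeFor ℓ → ¬ ℓ ∣ N * T →
      qCoeff f ℓ = (W.apOfModel ℓ : ℂ)) :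
    W.IsModularModelOfLevel W.conductorLevel := by
  obtain ⟨M, hMN, hM0, g, hg, hgf⟩ := exists_newform_of_eigenform hN f hf
  set B := N * T * W.Δ.natAbs with hB
  have hB0 : B ≠ 0 := mul_ne_zero (mul_ne_zero hN hT) (Int.natAbs_ne_zero.mpr hΔ)
  have h : Setup W B M g := ⟨hΔ, hss, hB0,
    (hMN.mul_right T).mul_right W.Δ.natAbs, hg,
    fun ℓ hℓ hd => (Int.natCast_dvd.mp hd).mul_left _,
    fun ℓ hℓ hℓB => by
      have hℓN : ¬ ℓ ∣ N * T := fun hd => hℓB (hd.mul_right _)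
      rw [hgf ℓ hℓ fun hd => hℓN (hd.mul_right T)]
      exact hfW ℓ hℓ (fun hd => hℓB ((Int.natCast_dvd.mp hd).mul_left _)) hℓN⟩
  have : NeZero M := ⟨hM0⟩
  obtain ⟨p, hp, hpp, hirr⟩ := exists_prime_gt_modRepIsIrreducible W hΔ (max B 2)
  have : Fact p.Prime := ⟨hpp⟩
  have hsq : ∀ q : ℕ, q.Prime → ¬ q ^ 2 ∣ M := by
    intro q hq hd
    have hqp : q ≠ p := fun e => by
      have h1 := Nat.le_of_dvd (Nat.pos_of_ne_zero hB0)
        (((dvd_pow_self q two_ne_zero).trans hd).trans h.dvd)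
      omega
    rcases Nat.lt_or_ge 2 (M.factorization q) with h3 | h3
    · exact h.not_exponent hhigh (by omega) hirr hq hqp h3
    · exact h.not_sq h36 (by omega) hirr hq hqp
        (le_antisymm h3 ((hq.pow_dvd_iff_le_factorization hM0).mp hd))
  have hiff : ∀ q : ℕ, q.Prime → (q ∣ M → ¬ q ^ 2 ∣ M) ∧ (q ∣ M ↔ (q : ℤ) ∣ W.Δ) := fun q hq =>
    ⟨fun _ => hsq q hq, fun hd => by_contra fun hgood => hsq q hq (h.good_not_exact h35 hq hgood hd),
      fun hd => h.bad_dvd h29 hq hd⟩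
  have hM : M = W.conductorLevel := eq_conductorLevel W hΔ hM0 hiff
  subst hM
  exact ⟨g, hg.1, fun q hq hgood hqM => h.coeff_eq_of_good h29 hq hgood hqM⟩

end Fermat.Agent.CondLevel
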