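import Fermat.Prelude.Def_FLTPrelim_ModularRep
import Mathlib.RingTheory.Ideal.GoingUp
import Mathlib.Data.Nat.PrimeFin

/-!
An algebraic integer lying in maximal ideals over infinitely many rational primes is zero.
-/

set_option autoImplicit false

namespace Fermat.Agent.CondLevel

theorem algInt_eq_zero_of_mem_infinitely_many (x : integralClosure ℤ ℂ) (B : ℕ)
    (h : ∀ l : ℕ, l.Prime → B < l →
      ∃ 𝔪 : Ideal (integralClosure ℤ ℂ), 𝔪.IsMaximal ∧ (l : integralClosure ℤ ℂ) ∈ 𝔪 ∧ x ∈ 𝔪) :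
    x = 0 := by
  by_contra hx
  obtain ⟨c, hc, hc0⟩ := (Submodule.ne_bot_iff _).mp
    (Ideal.comap_ne_bot_of_integral_mem (R := ℤ) hx
      (Ideal.subset_span (Set.mem_singleton x)) (Algebra.IsIntegral.isIntegral x))
  obtain ⟨l, hl, hlp⟩ := Nat.exists_infinite_primes (c.natAbs + B + 1)
  obtain ⟨𝔪, h𝔪, hl𝔪, hx𝔪⟩ := h l hlp (by omega)
  have hc𝔪 : (c : integralClosure ℤ ℂ) ∈ 𝔪 := by
    have : (c : integralClosure ℤ ℂ) ∈ Ideal.span {x} := by simpa [Ideal.mem_comap] using hc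
    exact (Ideal.span_le (s := {x})).mpr (Set.singleton_subset_iff.mpr hx𝔪) this
  have hcop : IsCoprime (c : ℤ) (l : ℤ) := by
    rw [Int.isCoprime_iff_nat_coprime, Int.natAbs_natCast, Nat.coprime_comm,
      Nat.Prime.coprime_iff_not_dvd hlp]
    intro hd
    have := Nat.le_of_dvd (Int.natAbs_pos.mpr hc0) hd
    omega
  obtain ⟨a, b, hab⟩ := hcop
  refine h𝔪.ne_top ((Ideal.eq_top_iff_one _).mpr ?_)
  have h1 : (a : integralClosure ℤ ℂ) * c + (b : integralClosure ℤ ℂ) * l = 1 := by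
    exact_mod_cast congrArg (fun z : ℤ => (z : integralClosure ℤ ℂ)) hab
  rw [← h1]
  exact add_mem (Ideal.mul_mem_left _ _ hc𝔪) (Ideal.mul_mem_left _ _ hl𝔪)

end Fermat.Agent.CondLevel
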