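import Fermat.Agent.CondLevel.TwoDim
import Fermat.Prelude.Def_GaloisRep_Residual

/-!
An odd residual representation with the traces and determinants of an irreducible odd
two-dimensional representation over a subfield is absolutely irreducible.
-/

set_option autoImplicit false

noncomputable section

open scoped TensorProduct
open Module Matrix

namespace Fermat.Agent.CondLevel

local notation "GQ" => AlgebraicClosure ℚ ≃ₐ[ℚ] AlgebraicClosure ℚ

variable {F : Type} [Field F] {V : Type} [AddCommGroup V] [Module F V]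
  [Module.Finite F V]

/-- An involution of determinant `-1` is diagonalisable with eigenvalues `1, -1`. -/
theorem exists_basis_involution (h2 : (2 : F) ≠ 0) (hV : finrank F V = 2) {f : End F V}
    (hff : f * f = 1) (hdet : LinearMap.det f = -1) :
    ∃ b : Basis (Fin 2) F V, f (b 0) = b 0 ∧ f (b 1) = -b 1 := by
  have hne : ∀ s : F, s * s = 1 → f ≠ s • 1 := by
    intro s hs hfs
    rw [hfs, LinearMap.det_smul, hV, map_one, mul_one, sq, hs] at hdet
    apply h2
    linear_combination hdet
  obtain ⟨x, hx⟩ : ∃ x, f x + x ≠ 0 := by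
    by_contra h
    push Not at h
    exact hne (-1) (by ring) (LinearMap.ext fun x => by
      simpa [add_eq_zero_iff_eq_neg] using h x)
  obtain ⟨y, hy⟩ : ∃ y, f y - y ≠ 0 := by
    by_contra h
    push Not at h
    exact hne 1 (by ring) (LinearMap.ext fun x => by simpa [sub_eq_zero] using h x)
  have hfx : f (f x + x) = f x + x := by
    rw [map_add, ← Module.End.mul_apply, hff, Module.End.one_apply, add_comm]
  have hfy : f (f y - y) = -(f y - y) := by
    rw [map_sub, ← Module.End.mul_apply, hff, Module.End.one_apply, neg_sub]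
  have hli : LinearIndependent F ![f x + x, f y - y] := by
    rw [LinearIndependent.pair_iff]
    intro s t hst
    have h1 := congrArg f hst
    rw [map_add, map_smul, map_smul, hfx, hfy, map_zero] at h1
    have hs : (2 * s) • (f x + x) = 0 := by
      calc (2 * s) • (f x + x) = (s • (f x + x) + t • (f y - y)) +
          (s • (f x + x) + t • -(f y - y)) := by module
        _ = 0 := by rw [hst, h1, add_zero]
    have hs0 : s = 0 :=
      (mul_eq_zero.mp ((smul_eq_zero.mp hs).resolve_right hx)).resolve_left h2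
    rw [hs0, zero_smul, zero_add] at hst
    exact ⟨hs0, (smul_eq_zero.mp hst).resolve_right hy⟩
  refine ⟨basisOfLinearIndependentOfCardEqFinrank hli (by rw [hV]; rfl), ?_, ?_⟩ <;>
    simp [hfx, hfy]

/-- Irreducibility transfers along equality of traces and determinants to any odd
representation over an extension field. -/
theorem irreducible_of_trace_det {K : Type} [Field K] (hk2 : (2 : K) ≠ 0) (ι' : F →+* K)
    (hV : finrank F V = 2) (ρ : GQ →* End F V)
    (hirr : ∀ N : Submodule F V, (∀ σ, ∀ x ∈ N, ρ σ x ∈ N) → N = ⊥ ∨ N = ⊤)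
    (c : GQ) (hcc : c * c = 1) (hdetc : LinearMap.det (ρ c) = -1)
    {V' : Type} [AddCommGroup V'] [Module K V'] [Module.Finite K V'] (hV' : finrank K V' = 2)
    (ρ' : GQ →* End K V')
    (htr : ∀ σ, LinearMap.trace K V' (ρ' σ) = ι' (LinearMap.trace F V (ρ σ)))
    (hdet : ∀ σ, LinearMap.det (ρ' σ) = ι' (LinearMap.det (ρ σ)))
    (U : Submodule K V') (hU : ∀ σ, ∀ x ∈ U, ρ' σ x ∈ U) : U = ⊥ ∨ U = ⊤ := by
  by_contra hcon
  push Not at hcon
  have hU1 : finrank K U = 1 := by
    have hlt := Submodule.finrank_lt (Ne.lt_top hcon.2).ne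
    have hpos : finrank K U ≠ 0 := fun h0 => hcon.1 (Submodule.finrank_eq_zero.mp h0)
    rw [hV'] at hlt
    omega
  obtain ⟨w, hw0, hwspan⟩ := finrank_eq_one_iff'.mp hU1
  obtain ⟨u, hu⟩ := SetLike.exists_not_mem_of_ne_top U (hcon.2) rfl
  have hli : LinearIndependent K ![(w : V'), u] := by
    rw [LinearIndependent.pair_iff]
    intro s t hst
    have ht : t = 0 := by
      by_contra ht
      apply hu
      have : u = (-(t⁻¹ * s)) • (w : V') := by
        calc u = t⁻¹ • (t • u) := by rw [smul_smul, inv_mul_cancel₀ ht, one_smul]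
          _ = t⁻¹ • (-(s • (w : V'))) := by rw [eq_neg_of_add_eq_zero_right hst]
          _ = (-(t⁻¹ * s)) • (w : V') := by module
      rw [this]
      exact U.smul_mem _ w.2
    rw [ht, zero_smul, add_zero] at hst
    exact ⟨by simpa [hw0] using hst, ht⟩
  let b' : Basis (Fin 2) K V' :=
    basisOfLinearIndependentOfCardEqFinrank hli (by rw [hV']; rfl)
  let M' : GQ →* Matrix (Fin 2) (Fin 2) K :=
    (LinearMap.toMatrixAlgEquiv b').toMulEquiv.toMonoidHom.comp ρ'
  have h10 : ∀ g, M' g 1 0 = 0 := by
    intro g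
    obtain ⟨s, hs⟩ := hwspan ⟨_, hU g (w : V') w.2⟩
    have hs' : ρ' g (b' 0) = s • b' 0 := by
      simp only [b', coe_basisOfLinearIndependentOfCardEqFinrank]
      exact (congrArg Subtype.val hs).symm
    show LinearMap.toMatrixAlgEquiv b' (ρ' g) 1 0 = 0
    rw [LinearMap.toMatrixAlgEquiv_apply, hs']
    simp
  let χ₁ : GQ →* K :=
    { toFun := fun g => M' g 0 0
      map_one' := by rw [map_one]; simp
      map_mul' := fun g g' => by
        rw [map_mul, Matrix.mul_apply, Fin.sum_univ_two, h10 g', mul_zero, add_zero] }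
  let χ₂ : GQ →* K :=
    { toFun := fun g => M' g 1 1
      map_one' := by rw [map_one]; simp
      map_mul' := fun g g' => by
        rw [map_mul, Matrix.mul_apply, Fin.sum_univ_two, h10 g, zero_mul, zero_add] }
  have htr' : ∀ g, ι' (LinearMap.trace F V (ρ g)) = χ₁ g + χ₂ g := by
    intro g
    rw [← htr g, LinearMap.trace_eq_matrix_trace K b', Matrix.trace_fin_two]
    rfl
  have hdetc' : χ₁ c * χ₂ c = -1 := by
    have h1 : LinearMap.det (ρ' c) = χ₁ c * χ₂ c := by
      rw [← LinearMap.det_toMatrix b', Matrix.det_fin_two]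
      show M' c 0 0 * M' c 1 1 - M' c 0 1 * M' c 1 0 = _
      rw [h10, mul_zero, sub_zero]
      rfl
    rw [← h1]
    rw [hdet, hdetc, map_neg, map_one]
  have hc1 : χ₁ c * χ₁ c = 1 := by rw [← map_mul, hcc, map_one]
  have hc2 : χ₂ c = -χ₁ c := by linear_combination χ₁ c * hdetc' - χ₂ c * hc1
  have hF2 : (2 : F) ≠ 0 := fun h => hk2 (by rw [← map_ofNat ι' 2, h, map_zero])
  obtain ⟨b, hb0, hb1⟩ := exists_basis_involution hF2 hV
    (by rw [← map_mul, hcc, map_one] : ρ c * ρ c = 1) hdetc
  let M : GQ →* Matrix (Fin 2) (Fin 2) F :=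
    (LinearMap.toMatrixAlgEquiv b).toMulEquiv.toMonoidHom.comp ρ
  have hMc : M c = !![1, 0; 0, -1] := by
    ext i j
    show LinearMap.toMatrixAlgEquiv b (ρ c) i j = _
    rw [LinearMap.toMatrixAlgEquiv_apply]
    fin_cases i <;> fin_cases j <;> simp [hb0, hb1]
  have hMtr : ∀ g, ι' (M g).trace = χ₁ g + χ₂ g := fun g => by
    rw [← htr' g, LinearMap.trace_eq_matrix_trace F b]
    rfl
  -- a vanishing off-diagonal entry gives a stable line
  have hstable : ∀ i j : Fin 2, i ≠ j → (∀ g, M g i j = 0) → False := by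
    intro i j hij hzero
    have hst : ∀ g, ∀ x ∈ Submodule.span F {b j}, ρ g x ∈ Submodule.span F {b j} := by
      intro g x hx
      obtain ⟨s, rfl⟩ := Submodule.mem_span_singleton.mp hx
      rw [map_smul]
      refine Submodule.smul_mem _ s ?_
      have h0 : b.repr (ρ g (b j)) i = 0 := by
        rw [← LinearMap.toMatrixAlgEquiv_apply]; exact hzero g
      rw [← b.sum_repr (ρ g (b j)), Fin.sum_univ_two]
      fin_cases i <;> fin_cases j <;> simp_all [Submodule.smul_mem, Submodule.mem_span_singleton_self]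
    rcases hirr _ hst with h | h
    · exact b.ne_zero j (Submodule.span_singleton_eq_bot.mp h)
    · have := congrArg (fun S : Submodule F V => finrank F S) h
      simp [finrank_span_singleton (b.ne_zero j), hV] at this
  rcases triangular_of_equal_trace hk2 ι' M c hMc χ₁ χ₂ hc1 hc2 hMtr with h | h
  · exact hstable 0 1 (by decide) h
  · exact hstable 1 0 (by decide) h

/-- Absolute irreducibility transfers along equality of traces and determinants. -/
theorem isAbsolutelyIrreducible_of_trace_det {k : Type} [Field k] (h2 : (2 : k) ≠ 0) (ι : F →+* k)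
    (hV : finrank F V = 2) (ρ : GQ →* End F V)
    (hirr : ∀ N : Submodule F V, (∀ σ, ∀ x ∈ N, ρ σ x ∈ N) → N = ⊥ ∨ N = ⊤)
    (c : GQ) (hcc : c * c = 1) (hdetc : LinearMap.det (ρ c) = -1)
    (τ : ResidualGaloisRep k)
    (htr : ∀ σ, LinearMap.trace k τ.V (τ.ρ σ) = ι (LinearMap.trace F V (ρ σ)))
    (hdet : ∀ σ, LinearMap.det (τ.ρ σ) = ι (LinearMap.det (ρ σ))) :
    τ.IsAbsolutelyIrreducible :=
  irreducible_of_trace_det (K := AlgebraicClosure k)
    (fun h => h2 ((algebraMap k (AlgebraicClosure k)).injective (by rw [map_ofNat, map_zero, h])))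
    ((algebraMap k (AlgebraicClosure k)).comp ι) hV ρ hirr c hcc hdetc
    (τ.baseChange (AlgebraicClosure k)).finrank_eq (τ.baseChange (AlgebraicClosure k)).ρ
    (fun σ => (LinearMap.trace_baseChange (τ.ρ σ) (AlgebraicClosure k)).trans
      (congrArg (algebraMap k (AlgebraicClosure k)) (htr σ)))
    (fun σ => (LinearMap.det_baseChange (A := AlgebraicClosure k) (τ.ρ σ)).trans
      (congrArg (algebraMap k (AlgebraicClosure k)) (hdet σ)))

end Fermat.Agent.CondLevel
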