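import Fermat.Agent.CondLevel.Torsion
import Fermat.Agent.CondLevel.Irreducible
import Fermat.Prelude.Def_GaloisRep_Adic
import Fermat.Prelude.Def_GaloisRep_LocalConditions
import Mathlib.RingTheory.DiscreteValuationRing.Basic
import Mathlib.RingTheory.Filtration
import Mathlib.Algebra.CharP.Quotient

/-!
Comparison of Galois representations having the Frobenius polynomials of an elliptic curve
`X² - a_ℓ(W) X + ℓ` with the torsion representations of the curve.
-/

set_option autoImplicit false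

noncomputable section

open Polynomial WeierstrassCurve
open scoped TensorProduct

namespace Fermat.Agent.CondLevel

local notation "GQ" => AlgebraicClosure ℚ ≃ₐ[ℚ] AlgebraicClosure ℚ

variable (W : WeierstrassCurve ℤ) (hΔ : W.Δ ≠ 0)

section Residual

variable (p : ℕ) [Fact p.Prime] {k : Type} [Field k] [CharP k p]

include hΔ in
theorem residual_trace_det_eq (τ : ResidualGaloisRep k) (S : Finset ℕ) (hpS : p ∈ S)
    (hbadS : ∀ ℓ : ℕ, ℓ.Prime → (ℓ : ℤ) ∣ W.Δ → ℓ ∈ S)
    (hτ : AtFrobeniusOutside S fun σ => ∀ ℓ : ℕ, ℓ.Prime → ℓ ∉ S →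
      ∀ A : ValuationSubring (AlgebraicClosure ℚ), A.LiesOverPrime ℓ → A.IsFrobeniusAt σ ℓ →
        LinearMap.charpoly (τ.ρ σ) = X ^ 2 - C (W.apOfModel ℓ : k) * X + C (ℓ : k))
    (σ : GQ) :
    LinearMap.trace k τ.V (τ.ρ σ) =
        ZMod.castHom (dvd_refl p) k (LinearMap.trace (ZMod p) (Tors W p) (rhoTors W p σ)) ∧
      LinearMap.det (τ.ρ σ) =
        ZMod.castHom (dvd_refl p) k (LinearMap.det (rhoTors W p σ)) := by
  have := moduleFinite_tors W hΔ p
  refine trace_det_eq_of_frobenius (A := k) τ.finrank_eq (finrank_tors W hΔ p)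
    τ.factorsThroughFiniteLevel (rhoTors_finiteLevel W hΔ (Fact.out : p.Prime).ne_zero)
    (RingHom.id k) (ZMod.castHom (dvd_refl p) k) S ?_ σ
  intro ℓ hℓ hS A hA g hg
  obtain ⟨ht, hd⟩ := frobenius_trace_det W hΔ hℓ (p := p) (fun h => hS (h ▸ hpS))
    (fun h => hS (hbadS ℓ hℓ h)) hA hg
  obtain ⟨ht', hd'⟩ := trace_det_of_charpoly τ.finrank_eq _ (hτ ℓ hℓ hS A hA g hg ℓ hℓ hS A hA hg)
  simp [ht, hd, ht', hd', map_intCast, map_natCast]

include hΔ in
theorem residual_isAbsolutelyIrreducible (hp2 : p ≠ 2) (hirr : W.ModRepIsIrreducible p)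
    (τ : ResidualGaloisRep k)
    (h : ∀ σ, LinearMap.trace k τ.V (τ.ρ σ) =
        ZMod.castHom (dvd_refl p) k (LinearMap.trace (ZMod p) (Tors W p) (rhoTors W p σ)) ∧
      LinearMap.det (τ.ρ σ) =
        ZMod.castHom (dvd_refl p) k (LinearMap.det (rhoTors W p σ))) :
    τ.IsAbsolutelyIrreducible ∧ τ.IsOdd := by
  have := moduleFinite_tors W hΔ p
  refine ⟨?_, fun c hcc hne => by
    rw [(h c).2, det_rhoTors_involution W hΔ p hp2 hcc hne, map_neg, map_one]⟩
  refine isAbsolutelyIrreducible_of_trace_det ?_ (ZMod.castHom (dvd_refl p) k)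
    (finrank_tors W hΔ p) (rhoTors W p) (fun N hN => hirr.2 N fun σ x hx => hN σ x hx)
    complexConjugation complexConjugation_mul_self
    (det_rhoTors_involution W hΔ p hp2 complexConjugation_mul_self complexConjugation_ne_one)
    τ (fun σ => (h σ).1) (fun σ => (h σ).2)
  exact Ring.two_ne_zero (by rw [ringChar.eq k p]; exact hp2)

end Residual

section Adic

variable {O : Type} [CommRing O] [IsDomain O] [IsDiscreteValuationRing O]
  [CharZero O] (ρ : GaloisRepAdic O) (p : ℕ) [Fact p.Prime]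
  (hpO : (p : O) ∈ IsLocalRing.maximalIdeal O)

/-- `ρ` has the Frobenius polynomials of `W` outside `S`. -/
def HasFrobeniusOf (S : Finset ℕ) : Prop :=
  AtFrobeniusOutside S fun σ => ∀ ℓ : ℕ, ℓ.Prime → ℓ ∉ S →
    ∀ A : ValuationSubring (AlgebraicClosure ℚ), A.LiesOverPrime ℓ → A.IsFrobeniusAt σ ℓ →
      LinearMap.charpoly (ρ.ρ σ) = X ^ 2 - C (W.apOfModel ℓ : O) * X + C (ℓ : O)

omit [CharZero O] in
theorem trace_det_residual (σ : GQ) :
    LinearMap.trace (IsLocalRing.ResidueField O) ρ.residual.V (ρ.residual.ρ σ) =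
        IsLocalRing.residue O (LinearMap.trace O ρ.V (ρ.ρ σ)) ∧
      LinearMap.det (ρ.residual.ρ σ) = IsLocalRing.residue O (LinearMap.det (ρ.ρ σ)) :=
  ⟨LinearMap.trace_baseChange _ _, LinearMap.det_baseChange _⟩

include hpO in
omit [CharZero O] in
theorem charP_residueField : CharP (IsLocalRing.ResidueField O) p := by
  refine (CharP.charP_iff_prime_eq_zero Fact.out).mpr ?_
  rw [← map_natCast (IsLocalRing.residue O)]
  exact (IsLocalRing.residue_eq_zero_iff _).mpr hpO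

include hΔ in
omit [CharZero O] in
theorem adic_residual_trace_det [CharP (IsLocalRing.ResidueField O) p] (S : Finset ℕ)
    (hpS : p ∈ S) (hbadS : ∀ ℓ : ℕ, ℓ.Prime → (ℓ : ℤ) ∣ W.Δ → ℓ ∈ S)
    (hρ : HasFrobeniusOf W ρ S) (σ : GQ) :
    IsLocalRing.residue O (LinearMap.trace O ρ.V (ρ.ρ σ)) =
        ZMod.castHom (dvd_refl p) _ (LinearMap.trace (ZMod p) (Tors W p) (rhoTors W p σ)) ∧
      IsLocalRing.residue O (LinearMap.det (ρ.ρ σ)) =
        ZMod.castHom (dvd_refl p) _ (LinearMap.det (rhoTors W p σ)) := by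
  rw [← (trace_det_residual ρ σ).1, ← (trace_det_residual ρ σ).2]
  refine residual_trace_det_eq W hΔ p ρ.residual S hpS hbadS ?_ σ
  intro ℓ hℓ hS A hA g hg ℓ' hℓ' hS' A' hA' hg'
  obtain ⟨ht, hd⟩ := trace_det_of_charpoly ρ.finrank_eq _
    (hρ ℓ hℓ hS A hA g hg ℓ' hℓ' hS' A' hA' hg')
  rw [charpoly_eq_of_finrank_two ρ.residual.finrank_eq, (trace_det_residual ρ g).1,
    (trace_det_residual ρ g).2, ht, hd, map_intCast, map_natCast]

include hpO in
theorem exists_pow_le_span (j : ℕ) :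
    Ideal.span {((p ^ (j + 1) : ℕ) : O)} ≤ IsLocalRing.maximalIdeal O ^ (j + 1) ∧
      ∃ m : ℕ, IsLocalRing.maximalIdeal O ^ m ≤ Ideal.span {((p ^ (j + 1) : ℕ) : O)} := by
  refine ⟨?_, ?_⟩
  · rw [Ideal.span_singleton_le_iff_mem, Nat.cast_pow]
    exact Ideal.pow_mem_pow hpO _
  · obtain ⟨ϖ, hϖ⟩ := IsDiscreteValuationRing.exists_irreducible O
    obtain ⟨m, hm⟩ := IsDiscreteValuationRing.ideal_eq_span_pow_irreducible
      (s := Ideal.span {((p ^ (j + 1) : ℕ) : O)})
      (by rw [ne_eq, Ideal.span_singleton_eq_bot]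
          exact Nat.cast_ne_zero.mpr (pow_ne_zero _ (Fact.out : p.Prime).ne_zero)) hϖ
    exact ⟨m, by rw [hϖ.maximalIdeal_eq, Ideal.span_singleton_pow, hm]⟩

/-- The quadratic identity satisfied by powers of an element satisfying `f² = t f - d`. -/
theorem pow_quadratic {R : Type} [CommRing R] {V : Type} [AddCommGroup V] [Module R V]
    {f : Module.End R V} {t d : R} (hf : f ^ 2 = t • f - d • 1) (k : ℕ) :
    (f ^ k) ^ 2 = ((powCoeff t d k).1 * t + 2 * (powCoeff t d k).2) • f ^ k - (d ^ k) • 1 := by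
  have key : ∀ j, (powCoeff t d j).1 ^ 2 * d + (powCoeff t d j).1 * t * (powCoeff t d j).2 +
      (powCoeff t d j).2 ^ 2 = d ^ j := by
    intro j
    induction j with
    | zero => simp [powCoeff]
    | succ j ih => simp only [powCoeff, pow_succ d j]; linear_combination d * ih
  rw [← key k, pow_eq_powCoeff hf k]
  set u := (powCoeff t d k).1
  set v := (powCoeff t d k).2
  rw [sq (u • f + v • 1), add_mul, mul_add, mul_add, smul_mul_smul_comm, smul_mul_smul_comm,
    smul_mul_smul_comm, smul_mul_smul_comm, mul_one, mul_one, one_mul, ← sq f, hf]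
  simp only [smul_sub, smul_add, smul_smul]
  module

theorem map_powCoeff {R R' : Type} [CommRing R] [CommRing R'] (φ : R →+* R') (t d : R) (k : ℕ) :
    powCoeff (φ t) (φ d) k = (φ (powCoeff t d k).1, φ (powCoeff t d k).2) := by
  induction k with
  | zero => simp [powCoeff]
  | succ k ih => simp [powCoeff, ih]

include hΔ hpO in
/-- At a semistable prime `q ≠ p` a representation with the Frobenius polynomials of `W` is
unipotent on inertia. -/
theorem isUnipotentOnInertiaAt {q : ℕ} (hq : q.Prime) (hqp : q ≠ p)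
    (hss : (q : ℤ) ∣ W.Δ → ¬ (q : ℤ) ∣ W.c₄) (S : Finset ℕ) (hpS : p ∈ S)
    (hbadS : ∀ ℓ : ℕ, ℓ.Prime → (ℓ : ℤ) ∣ W.Δ → ℓ ∈ S) (hρ : HasFrobeniusOf W ρ S) :
    ρ.IsUnipotentOnInertiaAt q := by
  intro A hA τ hτ
  have hp : p.Prime := Fact.out
  have key : ∀ j : ℕ,
      LinearMap.trace O ρ.V (ρ.ρ τ) - 2 ∈ IsLocalRing.maximalIdeal O ^ (j + 1) ∧
      LinearMap.det (ρ.ρ τ) - 1 ∈ IsLocalRing.maximalIdeal O ^ (j + 1) := by
    intro j
    obtain ⟨hle, m, hm⟩ := exists_pow_le_span p hpO j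
    set n := p ^ (j + 1) with hn
    set I := Ideal.span {((n : ℕ) : O)} with hI
    have : NeZero n := ⟨pow_ne_zero _ hp.ne_zero⟩
    have hIne : I ≠ ⊤ := fun h => (IsLocalRing.maximalIdeal.isMaximal O).ne_top
      (top_le_iff.mp (h ▸ hle.trans (Ideal.pow_le_self (Nat.succ_ne_zero j))))
    have : Nontrivial (O ⧸ I) := Ideal.Quotient.nontrivial_iff.mpr hIne
    have hn0 : ((n : ℕ) : O ⧸ I) = 0 := by
      rw [← map_natCast (Ideal.Quotient.mk I), Ideal.Quotient.eq_zero_iff_mem]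
      exact Ideal.mem_span_singleton_self _
    let φ : ZMod n →+* O ⧸ I := ZMod.castHom (ringChar.dvd hn0) (O ⧸ I)
    have hr := finrank_reduceRep ρ I
    -- the property spread from Frobenius elements
    let P : Module.End (O ⧸ I) ((O ⧸ I) ⊗[O] ρ.V) →
        Module.End (ZMod n) (Tors W n) × ZMod n → Prop := fun a bd =>
      ∃ t : ZMod n, bd.1 ^ 2 = t • bd.1 - bd.2 • 1 ∧ LinearMap.trace (O ⧸ I) _ a = φ t ∧
        LinearMap.det a = φ bd.2
    have hfin : GaloisFactorsThroughFiniteLevel ((rhoTors W n).prod (cycChar n)) := by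
      obtain ⟨L₁, hf₁, h₁⟩ := rhoTors_finiteLevel W hΔ (NeZero.ne n)
      obtain ⟨L₂, hf₂, h₂⟩ := cycChar_finiteLevel n
      exact ⟨L₁ ⊔ L₂, @IntermediateField.finiteDimensional_sup _ _ _ _ _ L₁ L₂ hf₁ hf₂,
        fun σ hσ => Prod.ext (h₁ σ fun x hx => hσ x ((le_sup_left : L₁ ≤ L₁ ⊔ L₂) hx))
          (h₂ σ fun x hx => hσ x ((le_sup_right : L₂ ≤ L₁ ⊔ L₂) hx))⟩
    have hP : P (reduceRep ρ I τ) ((rhoTors W n).prod (cycChar n) τ) := by
      refine forall_of_frobenius_pow (reduceRep_finiteLevel ρ I hm) hfin P S ?_ τ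
      intro ℓ hℓ hS B hB σ hσ k
      have hℓn : ¬ ℓ ∣ n := fun hd => hS
        ((Nat.prime_dvd_prime_iff_eq hℓ hp).mp (hℓ.dvd_of_dvd_pow hd) ▸ hpS)
      have hgood : W.IsGoodPrimeFor ℓ := fun h => hS (hbadS ℓ hℓ h)
      obtain ⟨ht, hd⟩ :=
        trace_det_of_charpoly ρ.finrank_eq _ (hρ ℓ hℓ hS B hB σ hσ ℓ hℓ hS B hB hσ)
      have htφ : LinearMap.trace (O ⧸ I) _ (reduceRep ρ I σ) = φ (W.apOfModel ℓ : ZMod n) := by
        rw [trace_reduceRep, ht, map_intCast, map_intCast]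
      have hdφ : LinearMap.det (reduceRep ρ I σ) = φ (ℓ : ZMod n) := by
        rw [det_reduceRep, hd, map_natCast, map_natCast]
      refine ⟨(powCoeff (W.apOfModel ℓ : ZMod n) ℓ k).1 * (W.apOfModel ℓ : ZMod n) +
        2 * (powCoeff (W.apOfModel ℓ : ZMod n) ℓ k).2, ?_, ?_, ?_⟩
      · rw [MonoidHom.prod_apply, map_pow, map_pow, cycChar_frobenius n hℓ hℓn hB hσ]
        exact pow_quadratic (frobenius_quadratic W hℓ hℓn hgood hB hσ) k
      · rw [map_pow, trace_pow_eq hr, htφ, hdφ, map_powCoeff φ]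
        simp only [map_add, map_mul, map_ofNat]
      · rw [map_pow, map_pow LinearMap.det, hdφ, MonoidHom.prod_apply, map_pow (cycChar n),
          cycChar_frobenius n hℓ hℓn hB hσ, ← map_pow]
    obtain ⟨t, hquad, htr, hdet⟩ := hP
    have hqn : ¬ q ∣ n := fun hd =>
      hqp ((Nat.prime_dvd_prime_iff_eq hq hp).mp (hq.dvd_of_dvd_pow hd))
    have hd1 : cycChar n τ = 1 := cycChar_inertia n hq hqn hA hτ
    simp only [MonoidHom.prod_apply, hd1, one_smul, map_one] at hquad hdet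
    have hu := inertia_unipotent W hΔ hq hss hqn hA hτ
    have hzero : ((2 : ZMod n) - t) • rhoTors W n τ = 0 := by
      rw [sub_smul, sub_eq_zero]
      exact sub_left_injective (b := 1) (hu.symm.trans hquad)
    have hinv : rhoTors W n τ * rhoTors W n τ⁻¹ = 1 := by
      rw [← map_mul, mul_inv_cancel, map_one]
    have ht2 : (2 : ZMod n) - t = 0 := by
      refine eq_zero_of_smul_eq_zero W hΔ (NeZero.ne n) _ fun x => ?_
      have h := congrArg (fun f => f * rhoTors W n τ⁻¹) hzero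
      simp only [smul_mul_assoc, hinv, zero_mul] at h
      have := congrArg (fun f : Module.End (ZMod n) (Tors W n) => f x) h
      simpa using this
    rw [← sub_eq_zero.mp ht2, map_ofNat, trace_reduceRep] at htr
    rw [det_reduceRep] at hdet
    refine ⟨hle ?_, hle ?_⟩
    · rw [← Ideal.Quotient.eq_zero_iff_mem, map_sub, htr, map_ofNat, sub_self]
    · rw [← Ideal.Quotient.eq_zero_iff_mem, map_sub, hdet, map_one, sub_self]
  have hzero : ∀ x : O, (∀ j, x ∈ IsLocalRing.maximalIdeal O ^ (j + 1)) → x = 0 := by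
    intro x hx
    rw [← Ideal.mem_bot, ← Ideal.iInf_pow_eq_bot_of_isLocalRing (IsLocalRing.maximalIdeal O)
      (IsLocalRing.maximalIdeal.isMaximal O).ne_top]
    exact Submodule.mem_iInf _ |>.mpr fun i => Ideal.pow_le_pow_right (Nat.le_succ i) (hx i)
  rw [charpoly_eq_of_finrank_two ρ.finrank_eq, sub_eq_zero.mp (hzero _ fun j => (key j).1),
    sub_eq_zero.mp (hzero _ fun j => (key j).2), map_one, map_ofNat]
  ring

end Adic

end Fermat.Agent.CondLevel
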