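import Fermat.Prelude.Def_FLTPrelim_Modularity
import Mathlib.Algebra.Polynomial.Roots
import Mathlib.Algebra.Field.ZMod

/-!
Trivial point count bounds: `-(q+1) < a_q(W) ≤ q` for every prime `q`.
-/

set_option autoImplicit false

noncomputable section

namespace Fermat.Agent.CondLevel

open WeierstrassCurve Polynomial

variable {F : Type*} [Field F] (E : WeierstrassCurve F)

/-- The quadratic whose roots are the `y` above a given `x`. -/
def fibrePoly (x : F) : F[X] :=
  X ^ 2 + C (E.a₁ * x + E.a₃) * X - C (x ^ 3 + E.a₂ * x ^ 2 + E.a₄ * x + E.a₆)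

theorem natDegree_fibrePoly (x : F) : (fibrePoly E x).natDegree = 2 := by
  unfold fibrePoly; compute_degree!

theorem card_le [Finite F] : E.card ≤ 2 * Nat.card F + 1 := by
  classical
  have := Fintype.ofFinite F
  let f : E.toAffine.Point → Option (F × F) := fun P =>
    match P with
    | .zero => none
    | .some x y _ => Option.some (x, y)
  have hf : Function.Injective f := by
    rintro (_ | ⟨x₁, y₁, h₁⟩) (_ | ⟨x₂, y₂, h₂⟩) h <;> simp_all [f]
  let T : Finset (Option (F × F)) := insert none
    (((Finset.univ : Finset F).biUnion fun x =>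
      ((fibrePoly E x).roots.toFinset).image fun y => (x, y)).image Option.some)
  have hT : ∀ P, f P ∈ T := by
    rintro (_ | ⟨x, y, h⟩)
    · simp [f, T]
    · simp only [f, T, Finset.mem_insert, reduceCtorEq, Finset.mem_image, Option.some.injEq,
        false_or, exists_eq_right, Finset.mem_biUnion, Finset.mem_univ, true_and,
        Multiset.mem_toFinset, Prod.mk.injEq]
      refine ⟨x, y, ?_, rfl, rfl⟩
      have hne : fibrePoly E x ≠ 0 := fun h0 => by
        simpa [h0] using natDegree_fibrePoly E x
      rw [Polynomial.mem_roots hne]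
      have := (Affine.equation_iff _ _).mp h.1
      simp [fibrePoly]
      linear_combination this
  have : Fintype E.toAffine.Point := Fintype.ofFinite _
  calc E.card = Fintype.card E.toAffine.Point := Nat.card_eq_fintype_card
    _ = (Finset.univ.image f).card := by rw [Finset.card_image_of_injective _ hf, Finset.card_univ]
    _ ≤ T.card := Finset.card_le_card (by simp [Finset.subset_iff, hT])
    _ ≤ (((Finset.univ : Finset F).biUnion fun x =>
          ((fibrePoly E x).roots.toFinset).image fun y => (x, y)).image Option.some).card + 1 :=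
        Finset.card_insert_le _ _
    _ ≤ (∑ _x : F, 2) + 1 := by
        gcongr
        refine Finset.card_image_le.trans (Finset.card_biUnion_le.trans ?_)
        gcongr with x
        refine Finset.card_image_le.trans ((Multiset.toFinset_card_le _).trans ?_)
        exact (Polynomial.card_roots' _).trans (natDegree_fibrePoly E x).le
    _ = 2 * Nat.card F + 1 := by simp [Nat.card_eq_fintype_card, mul_comm]

theorem card_pos [Finite F] : 0 < E.card :=
  have : Nonempty E.toAffine.Point := ⟨.zero⟩
  Nat.card_pos

/-- `a_q(W) ≤ q` and `-(q+1) < a_q(W)`. -/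
theorem apOfModel_bounds (W : WeierstrassCurve ℤ) {q : ℕ} (hq : q.Prime) :
    -((q : ℤ) + 1) < W.apOfModel q ∧ W.apOfModel q ≤ q := by
  have : Fact q.Prime := ⟨hq⟩
  have h1 := card_le (W.reductionMod q)
  have h2 := card_pos (W.reductionMod q)
  rw [Nat.card_zmod] at h1
  rw [apOfModel, traceOfFrobenius, Nat.card_zmod]
  constructor <;> omega

theorem apOfModel_add_ne_zero (W : WeierstrassCurve ℤ) {q : ℕ} (hq : q.Prime) {ε : ℤ}
    (hε : ε = 1 ∨ ε = -1) : W.apOfModel q ≠ ε * ((q : ℤ) + 1) := by
  have := apOfModel_bounds W hq
  rcases hε with rfl | rfl <;> omega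

end Fermat.Agent.CondLevel
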