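import Mathlib.LinearAlgebra.Charpoly.BaseChange
import Mathlib.LinearAlgebra.Trace
import Mathlib.LinearAlgebra.Matrix.Charpoly.Coeff

/-!
Linear algebra of endomorphisms of free modules of rank two: the characteristic polynomial is
given by trace and determinant, traces of powers, and a criterion telling that equal traces
preserve (absolute) irreducibility for odd representations.
-/

set_option autoImplicit false

namespace Fermat.Agent.CondLevel

open Polynomial Module

universe uR uV

section Rank2

variable {R : Type uR} [CommRing R] [Nontrivial R]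
  {V : Type uV} [AddCommGroup V] [Module R V]
  [Module.Free R V] [Module.Finite R V]

/-- A basis indexed by `Fin 2`. -/
noncomputable def basisTwo (h : finrank R V = 2) : Basis (Fin 2) R V :=
  (Module.finBasis R V).reindex (finCongr h)

theorem charpoly_eq_of_finrank_two (h : finrank R V = 2) (f : End R V) :
    f.charpoly = X ^ 2 - C (LinearMap.trace R V f) * X + C (LinearMap.det f) := by
  have b := basisTwo h
  rw [← f.charpoly_toMatrix b, Matrix.charpoly_fin_two, LinearMap.trace_eq_matrix_trace R b f,
    ← LinearMap.det_toMatrix b f]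

theorem trace_det_of_charpoly (h : finrank R V = 2) (f : End R V) {t d : R}
    (hf : f.charpoly = X ^ 2 - C t * X + C d) :
    LinearMap.trace R V f = t ∧ LinearMap.det f = d := by
  rw [charpoly_eq_of_finrank_two h f] at hf
  have h0 := congrArg (fun q => q.coeff 0) hf
  have h1 := congrArg (fun q => q.coeff 1) hf
  simp [coeff_X_pow] at h0 h1
  exact ⟨h1, h0⟩

theorem sq_eq_of_finrank_two (h : finrank R V = 2) (f : End R V) :
    f ^ 2 = LinearMap.trace R V f • f - LinearMap.det f • 1 := by
  have := f.aeval_self_charpoly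
  rw [charpoly_eq_of_finrank_two h f] at this
  simp only [map_add, map_sub, map_mul, aeval_C, map_pow, aeval_X,
    Algebra.algebraMap_eq_smul_one, smul_mul_assoc, one_mul] at this
  rw [← sub_eq_zero]
  rw [← this]
  abel

/-- `(u_k, v_k)` with `f ^ k = u_k • f + v_k • 1` whenever `f² = t f - d`. -/
def powCoeff (t d : R) : ℕ → R × R
  | 0 => (0, 1)
  | k + 1 => ((powCoeff t d k).1 * t + (powCoeff t d k).2, -((powCoeff t d k).1 * d))

omit [Module.Free R V] [Module.Finite R V] [Nontrivial R] in
theorem pow_eq_powCoeff {f : End R V} {t d : R} (hf : f ^ 2 = t • f - d • 1) (k : ℕ) :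
    f ^ k = (powCoeff t d k).1 • f + (powCoeff t d k).2 • 1 := by
  induction k with
  | zero => simp [powCoeff]
  | succ k ih =>
    rw [pow_succ, ih, add_mul, smul_mul_assoc, smul_mul_assoc, one_mul, ← sq, hf, powCoeff]
    simp only [smul_sub, smul_smul]
    module

/-- The trace of a power depends on trace and determinant only. -/
theorem trace_pow_eq (h : finrank R V = 2) (f : End R V) (k : ℕ) :
    LinearMap.trace R V (f ^ k)
      = (powCoeff (LinearMap.trace R V f) (LinearMap.det f) k).1 * LinearMap.trace R V f
        + 2 * (powCoeff (LinearMap.trace R V f) (LinearMap.det f) k).2 := by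
  rw [pow_eq_powCoeff (sq_eq_of_finrank_two h f) k, map_add, map_smul, map_smul,
    LinearMap.trace_one, h]
  simp only [smul_eq_mul, Nat.cast_ofNat]
  ring

theorem trace_pow_congr {V' : Type uV} [AddCommGroup V'] [Module R V']
    [Module.Free R V'] [Module.Finite R V'] (h : finrank R V = 2) (h' : finrank R V' = 2)
    (f : End R V) (f' : End R V') (ht : LinearMap.trace R V f = LinearMap.trace R V' f')
    (hd : LinearMap.det f = LinearMap.det f') (k : ℕ) :
    LinearMap.trace R V (f ^ k) = LinearMap.trace R V' (f' ^ k) := by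
  rw [trace_pow_eq h, trace_pow_eq h', ht, hd]

end Rank2

section Irreducible

open Matrix

variable {G : Type*} [Monoid G] {F : Type*} [Field F] {K : Type*} [Field K]

/-- If an odd representation `ρ` over `K` with a stable line has the same traces as an odd
representation `σ ↦ M σ` over a subfield `F`, then `M` is simultaneously triangular. -/
theorem triangular_of_equal_trace (hK : (2 : K) ≠ 0) (ι : F →+* K)
    (M : G →* Matrix (Fin 2) (Fin 2) F) (c : G) (hc : M c = !![1, 0; 0, -1])
    (χ₁ χ₂ : G →* K) (hc1 : χ₁ c * χ₁ c = 1) (hc2 : χ₂ c = - χ₁ c)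
    (htr : ∀ g, ι (M g).trace = χ₁ g + χ₂ g) :
    (∀ g, M g 0 1 = 0) ∨ (∀ g, M g 1 0 = 0) := by
  set e := χ₁ c with he
  have hcg : ∀ g, ι ((M g) 0 0 - (M g) 1 1) = e * (χ₁ g - χ₂ g) := by
    intro g
    have h := htr (c * g)
    rw [map_mul, map_mul, map_mul, hc, Matrix.trace_fin_two, hc2, ← he] at h
    simp [Matrix.mul_apply, Fin.sum_univ_two] at h
    rw [map_sub]
    linear_combination h
  have hdiag : ∀ g, ι ((M g) 0 0) + ι ((M g) 1 1) = χ₁ g + χ₂ g := by
    intro g
    rw [← map_add, ← Matrix.trace_fin_two]
    exact htr g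
  have he' : e = 1 ∨ e = -1 := mul_self_eq_one_iff.mp hc1
  have key : ∃ χ : G →* K, ∀ g, ι ((M g) 0 0) = χ g := by
    rcases he' with he1 | he1
    · refine ⟨χ₁, fun g => mul_left_cancel₀ hK ?_⟩
      have h := hcg g
      rw [map_sub, he1] at h
      linear_combination h + hdiag g
    · refine ⟨χ₂, fun g => mul_left_cancel₀ hK ?_⟩
      have h := hcg g
      rw [map_sub, he1] at h
      linear_combination h + hdiag g
  obtain ⟨χ, hχ⟩ := key
  have hBC : ∀ g h, (M g) 0 1 * (M h) 1 0 = 0 := by
    intro g h
    have h1 := hχ (g * h)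
    rw [map_mul, map_mul, Matrix.mul_apply, Fin.sum_univ_two, map_add, map_mul, map_mul,
      hχ g, hχ h, add_eq_left] at h1
    apply ι.injective
    rw [map_mul, h1, map_zero]
  by_cases hB : ∀ g, M g 0 1 = 0
  · exact Or.inl hB
  · push Not at hB
    obtain ⟨g, hg⟩ := hB
    exact Or.inr fun h => (mul_eq_zero.mp (hBC g h)).resolve_left hg

end Irreducible

end Fermat.Agent.CondLevel
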