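import Fermat.Agent.Density.Qbar
import Fermat.Agent.CondLevel.TwoDim
import Fermat.Prelude.Def_GaloisRep_Adic
import Mathlib.FieldTheory.IntermediateField.Adjoin.Basic

/-!
Spreading identities between characteristic polynomials from Frobenius elements to the whole
Galois group, at finite level.
-/

set_option autoImplicit false

noncomputable section

open scoped TensorProduct

namespace Fermat.Agent.CondLevel

local notation "GQ" => AlgebraicClosure ℚ ≃ₐ[ℚ] AlgebraicClosure ℚ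

/-- `P` holds at all Frobenius elements at all primes outside `S`. -/
def AtFrobeniusOutside (S : Finset ℕ) (P : GQ → Prop) : Prop :=
  ∀ ℓ : ℕ, ℓ.Prime → ℓ ∉ S → ∀ A : ValuationSubring (AlgebraicClosure ℚ),
    A.LiesOverPrime ℓ → ∀ σ : GQ, A.IsFrobeniusAt σ ℓ → P σ

theorem eq_of_finiteLevel {M : Type} [MulOneClass M] {χ : GQ →* M}
    {L : IntermediateField ℚ (AlgebraicClosure ℚ)}
    (hL : ∀ σ : GQ, (∀ x ∈ L, σ x = x) → χ σ = 1) {g h : GQ} (hgh : ∀ x ∈ L, g x = h x) :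
    χ g = χ h := by
  have h1 : χ (h⁻¹ * g) = 1 := hL _ fun x hx => by
    rw [AlgEquiv.mul_apply, hgh x hx]
    exact h.symm_apply_apply x
  calc χ g = χ (h * (h⁻¹ * g)) := by rw [mul_inv_cancel_left]
    _ = χ h := by rw [map_mul, h1, mul_one]

/-- A property factoring through finite level and holding at powers of Frobenius elements holds
everywhere. -/
theorem forall_of_frobenius_pow {M₁ M₂ : Type} [MulOneClass M₁] [MulOneClass M₂]
    {χ₁ : GQ →* M₁} {χ₂ : GQ →* M₂}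
    (h₁ : GaloisFactorsThroughFiniteLevel χ₁) (h₂ : GaloisFactorsThroughFiniteLevel χ₂)
    (P : M₁ → M₂ → Prop) (S : Finset ℕ)
    (h : AtFrobeniusOutside S fun σ => ∀ k : ℕ, P (χ₁ (σ ^ k)) (χ₂ (σ ^ k))) (g : GQ) :
    P (χ₁ g) (χ₂ g) := by
  obtain ⟨L₁, hf₁, hL₁⟩ := h₁
  obtain ⟨L₂, hf₂, hL₂⟩ := h₂
  have hsup := @IntermediateField.finiteDimensional_sup _ _ _ _ _ L₁ L₂ hf₁ hf₂
  refine @Density.forall_of_forall_frobenius_pow (fun g => P (χ₁ g) (χ₂ g)) (L₁ ⊔ L₂) hsup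
    (fun g g' hgg' hg => ?_) S (fun p hp hpS A hA σ hσ k => h p hp hpS A hA σ hσ k) g
  have e₁ := eq_of_finiteLevel hL₁ (g := g) (h := g')
    fun x hx => hgg' x ((le_sup_left : L₁ ≤ L₁ ⊔ L₂) hx)
  have e₂ := eq_of_finiteLevel hL₂ (g := g) (h := g')
    fun x hx => hgg' x ((le_sup_right : L₂ ≤ L₁ ⊔ L₂) hx)
  rwa [← e₁, ← e₂]

theorem monoidHom_eq_of_frobenius {M : Type} [Monoid M] {χ₁ χ₂ : GQ →* M}
    (h₁ : GaloisFactorsThroughFiniteLevel χ₁) (h₂ : GaloisFactorsThroughFiniteLevel χ₂)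
    (S : Finset ℕ) (h : AtFrobeniusOutside S fun σ => χ₁ σ = χ₂ σ) : χ₁ = χ₂ :=
  MonoidHom.ext fun g => forall_of_frobenius_pow h₁ h₂ (fun a b => a = b) S
    (fun ℓ hℓ hS A hA σ hσ k => by rw [map_pow, map_pow, h ℓ hℓ hS A hA σ hσ]) g

theorem finiteLevel_comp {M N : Type} [Monoid M] [Monoid N] {χ : GQ →* M}
    (h : GaloisFactorsThroughFiniteLevel χ) (f : M →* N) :
    GaloisFactorsThroughFiniteLevel (f.comp χ) := by
  obtain ⟨L, hL, h1⟩ := h
  exact ⟨L, hL, fun σ hσ => by rw [MonoidHom.comp_apply, h1 σ hσ, map_one]⟩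

section TwoReps

variable {R₁ : Type} [CommRing R₁] [Nontrivial R₁] {V₁ : Type} [AddCommGroup V₁] [Module R₁ V₁]
  [Module.Free R₁ V₁] [Module.Finite R₁ V₁]
  {R₂ : Type} [CommRing R₂] [Nontrivial R₂] {V₂ : Type} [AddCommGroup V₂] [Module R₂ V₂]
  [Module.Free R₂ V₂] [Module.Finite R₂ V₂] {A : Type} [CommRing A]

/-- Two finite-level rank-two representations, over rings mapping to `A`, whose traces and
determinants agree in `A` at Frobenius elements, agree everywhere. -/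
theorem trace_det_eq_of_frobenius (hr₁ : Module.finrank R₁ V₁ = 2)
    (hr₂ : Module.finrank R₂ V₂ = 2) {ρ₁ : GQ →* Module.End R₁ V₁}
    {ρ₂ : GQ →* Module.End R₂ V₂}
    (h₁ : GaloisFactorsThroughFiniteLevel ρ₁) (h₂ : GaloisFactorsThroughFiniteLevel ρ₂)
    (φ₁ : R₁ →+* A) (φ₂ : R₂ →+* A) (S : Finset ℕ)
    (h : AtFrobeniusOutside S fun σ =>
      φ₁ (LinearMap.trace R₁ V₁ (ρ₁ σ)) = φ₂ (LinearMap.trace R₂ V₂ (ρ₂ σ)) ∧
      φ₁ (LinearMap.det (ρ₁ σ)) = φ₂ (LinearMap.det (ρ₂ σ))) (g : GQ) :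
    φ₁ (LinearMap.trace R₁ V₁ (ρ₁ g)) = φ₂ (LinearMap.trace R₂ V₂ (ρ₂ g)) ∧
      φ₁ (LinearMap.det (ρ₁ g)) = φ₂ (LinearMap.det (ρ₂ g)) := by
  refine forall_of_frobenius_pow h₁ h₂ (fun a b =>
    φ₁ (LinearMap.trace R₁ V₁ a) = φ₂ (LinearMap.trace R₂ V₂ b) ∧
      φ₁ (LinearMap.det a) = φ₂ (LinearMap.det b)) S
    (fun ℓ hℓ hS B hB σ hσ k => ?_) g
  obtain ⟨ht, hd⟩ := h ℓ hℓ hS B hB σ hσ
  have hcoeff : ∀ j, φ₁ (powCoeff (LinearMap.trace R₁ V₁ (ρ₁ σ)) (LinearMap.det (ρ₁ σ)) j).1 =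
      φ₂ (powCoeff (LinearMap.trace R₂ V₂ (ρ₂ σ)) (LinearMap.det (ρ₂ σ)) j).1 ∧
      φ₁ (powCoeff (LinearMap.trace R₁ V₁ (ρ₁ σ)) (LinearMap.det (ρ₁ σ)) j).2 =
      φ₂ (powCoeff (LinearMap.trace R₂ V₂ (ρ₂ σ)) (LinearMap.det (ρ₂ σ)) j).2 := by
    intro j
    induction j with
    | zero => simp [powCoeff]
    | succ j ih =>
      refine ⟨?_, ?_⟩ <;> simp only [powCoeff, map_add, map_mul, map_neg, ih.1, ih.2, ht, hd]
  refine ⟨?_, ?_⟩
  · rw [map_pow ρ₁, map_pow ρ₂, trace_pow_eq hr₁, trace_pow_eq hr₂]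
    simp only [map_add, map_mul, map_ofNat, (hcoeff k).1, (hcoeff k).2, ht]
  · rw [map_pow ρ₁, map_pow ρ₂, map_pow, map_pow, map_pow, map_pow, hd]

end TwoReps

section Reduce

variable {O : Type} [CommRing O] [IsLocalRing O] (ρ : GaloisRepAdic O) (I : Ideal O)

/-- The reduction of an adic representation modulo an ideal. -/
def reduceRep : GQ →* Module.End (O ⧸ I) ((O ⧸ I) ⊗[O] ρ.V) where
  toFun σ := (ρ.ρ σ).baseChange (O ⧸ I)
  map_one' := by rw [map_one, LinearMap.baseChange_one]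
  map_mul' σ τ := by rw [map_mul, LinearMap.baseChange_mul]

theorem reduceRep_finiteLevel {m : ℕ} (hI : IsLocalRing.maximalIdeal O ^ m ≤ I) :
    GaloisFactorsThroughFiniteLevel (reduceRep ρ I) := by
  obtain ⟨L, hL, h1⟩ := ρ.isAdicContinuous m
  refine ⟨L, hL, fun σ hσ => LinearMap.ext fun w => ?_⟩
  have hkill : ∀ x ∈ (IsLocalRing.maximalIdeal O ^ m) • (⊤ : Submodule O ρ.V),
      ∀ c : O ⧸ I, c ⊗ₜ[O] x = 0 := by
    intro x hx c
    refine Submodule.smul_induction_on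
      (p := fun x => c ⊗ₜ[O] x = (0 : (O ⧸ I) ⊗[O] ρ.V)) hx ?_ ?_
    · intro a ha w _
      rw [TensorProduct.tmul_smul, TensorProduct.smul_tmul', Algebra.smul_def,
        Ideal.Quotient.algebraMap_eq, Ideal.Quotient.eq_zero_iff_mem.mpr (hI ha), zero_mul,
        TensorProduct.zero_tmul]
    · intro x y hx hy
      rw [TensorProduct.tmul_add, hx, hy, add_zero]
  show (ρ.ρ σ).baseChange (O ⧸ I) w = w
  induction w using TensorProduct.induction_on with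
  | zero => rw [map_zero]
  | tmul c v =>
    rw [LinearMap.baseChange_tmul, ← sub_eq_zero, ← TensorProduct.tmul_sub]
    exact hkill _ (h1 σ hσ v) c
  | add x y hx hy => rw [map_add, hx, hy]

theorem trace_reduceRep (σ : GQ) :
    LinearMap.trace (O ⧸ I) _ (reduceRep ρ I σ) =
      Ideal.Quotient.mk I (LinearMap.trace O ρ.V (ρ.ρ σ)) :=
  LinearMap.trace_baseChange _ _

theorem det_reduceRep (σ : GQ) :
    LinearMap.det (reduceRep ρ I σ) = Ideal.Quotient.mk I (LinearMap.det (ρ.ρ σ)) :=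
  LinearMap.det_baseChange _

theorem finrank_reduceRep [Nontrivial (O ⧸ I)] :
    Module.finrank (O ⧸ I) ((O ⧸ I) ⊗[O] ρ.V) = 2 := by
  rw [Module.finrank_baseChange, ρ.finrank_eq]

end Reduce

end Fermat.Agent.CondLevel
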