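import Fermat.Agent.CondLevel.Involution
import Fermat.Agent.CondLevel.Transfer
import Fermat.Agent.Galois.Cyclotomic
import Mathlib.RingTheory.RootsOfUnity.AlgebraicallyClosed

/-!
The mod `n` cyclotomic character of `Gal(ℚ̄/ℚ)` as a monoid hom to `ZMod n`.
-/

set_option autoImplicit false

noncomputable section

namespace Fermat.Agent.CondLevel

local notation "GQ" => AlgebraicClosure ℚ ≃ₐ[ℚ] AlgebraicClosure ℚ

variable (n : ℕ) [NeZero n]

theorem exists_zeta : ∃ ζ : AlgebraicClosure ℚ, IsPrimitiveRoot ζ n :=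
  HasEnoughRootsOfUnity.exists_primitiveRoot (AlgebraicClosure ℚ) n

/-- A fixed primitive `n`-th root of unity. -/
def zetaN : AlgebraicClosure ℚ := (exists_zeta n).choose

theorem zetaN_spec : IsPrimitiveRoot (zetaN n) n := (exists_zeta n).choose_spec

/-- The mod `n` cyclotomic character. -/
def cycChar : GQ →* ZMod n := (Units.coeHom _).comp ((zetaN_spec n).autToPow ℚ)

theorem apply_zetaN (σ : GQ) : σ (zetaN n) = zetaN n ^ (cycChar n σ).val :=
  ((zetaN_spec n).autToPow_spec ℚ σ).symm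

theorem cycChar_eq_natCast {σ : GQ} {a : ℕ} (h : σ (zetaN n) = zetaN n ^ a) :
    cycChar n σ = a := by
  apply ZMod.val_injective
  refine (zetaN_spec n).pow_inj (ZMod.val_lt _) (ZMod.val_lt _) ?_
  rw [← apply_zetaN, h, ZMod.val_natCast]
  nth_rewrite 3 [(zetaN_spec n).eq_orderOf]
  exact (pow_mod_orderOf _ _).symm

theorem cycChar_finiteLevel : GaloisFactorsThroughFiniteLevel (cycChar n) := by
  refine ⟨IntermediateField.adjoin ℚ {zetaN n}, IntermediateField.adjoin.finiteDimensional ?_,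
    fun σ hσ => ?_⟩
  · exact ((zetaN_spec n).isIntegral (NeZero.pos n)).tower_top
  · simpa using cycChar_eq_natCast n (a := 1) (σ := σ)
      (by rw [pow_one]; exact hσ _ (IntermediateField.mem_adjoin_simple_self ℚ _))

theorem cycChar_frobenius {ℓ : ℕ} (hℓ : ℓ.Prime) (hn : ¬ ℓ ∣ n)
    {A : ValuationSubring (AlgebraicClosure ℚ)} (hA : A.LiesOverPrime ℓ) {σ : GQ}
    (hσ : A.IsFrobeniusAt σ ℓ) : cycChar n σ = ℓ :=
  cycChar_eq_natCast n (Galois.isFrobeniusAt_apply_rootOfUnity hA hℓ hσ hn (zetaN_spec n).pow_eq_one)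

theorem cycChar_inertia {q : ℕ} (hq : q.Prime) (hn : ¬ q ∣ n)
    {A : ValuationSubring (AlgebraicClosure ℚ)} (hA : A.LiesOverPrime q) {σ : GQ}
    (hσ : σ ∈ A.inertiaSubgroupIn ℚ) : cycChar n σ = 1 := by
  simpa using cycChar_eq_natCast n (a := 1) (σ := σ)
    (by rw [pow_one]; exact Galois.inertia_apply_rootOfUnity hA hq hσ hn (zetaN_spec n).pow_eq_one)

theorem cycChar_involution {p : ℕ} [Fact p.Prime] (hp2 : p ≠ 2) {c : GQ} (hcc : c * c = 1)
    (hne : c ≠ 1) : cycChar p c = -1 := by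
  have hp : p.Prime := Fact.out
  have hinv := apply_eq_inv_of_isPrimitiveRoot (c : AlgebraicClosure ℚ ≃+* AlgebraicClosure ℚ)
    (fun x => show (c * c) x = x by rw [hcc]; rfl)
    (by
      by_contra h
      push Not at h
      exact hne (AlgEquiv.ext h))
    hp hp2 (zetaN_spec p)
  have hpow : c (zetaN p) = zetaN p ^ (p - 1) := by
    rw [show c (zetaN p) = (zetaN p)⁻¹ from hinv]
    refine inv_eq_of_mul_eq_one_right ?_
    rw [← pow_succ', Nat.sub_add_cancel hp.pos, (zetaN_spec p).pow_eq_one]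
  rw [cycChar_eq_natCast p hpow, Nat.cast_sub hp.one_le, ZMod.natCast_self, Nat.cast_one, zero_sub]

end Fermat.Agent.CondLevel
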