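import Mathlib.FieldTheory.IsAlgClosed.Basic
import Mathlib.RingTheory.RootsOfUnity.PrimitiveRoots

/-!
A nontrivial involution of an algebraically closed field of characteristic zero inverts roots of
unity of odd prime order (Artin–Schreier, elementary part).
-/

set_option autoImplicit false

namespace Fermat.Agent.CondLevel

open Finset

variable {L : Type*} [Field L] [CharZero L] [IsAlgClosed L] (c : L ≃+* L)

private theorem fixed_sq (hcc : ∀ x, c (c x) = x) (hne : ∃ x, c x ≠ x) {i : L}
    (hi : i * i = -1) : c i ≠ i := by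
  intro hci
  obtain ⟨x, hx⟩ := hne
  set s := x - c x with hs
  have hs0 : s ≠ 0 := sub_ne_zero.mpr fun h => hx h.symm
  have hcs : c s = -s := by rw [hs, map_sub, hcc]; ring
  obtain ⟨y, hy⟩ := IsAlgClosed.exists_eq_mul_self s
  have hn : c (y * c y) = y * c y := by rw [map_mul, hcc, mul_comm]
  have hsq : (y * c y) * (y * c y) = - (s * s) := by
    calc (y * c y) * (y * c y) = (y * y) * c (y * y) := by rw [map_mul]; ring
      _ = s * (c s) := by rw [← hy]
      _ = -(s * s) := by rw [hcs]; ring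
  have h2 : (y * c y) * (y * c y) = (i * s) * (i * s) := by
    rw [hsq]; linear_combination (-(s * s)) * hi
  have hfix : c (i * s) = i * s := by
    rcases mul_self_eq_mul_self_iff.mp h2 with h | h
    · rw [← h]; exact hn
    · have : i * s = -(y * c y) := by rw [h, neg_neg]
      rw [this, map_neg, hn]
  rw [map_mul, hci, hcs] at hfix
  have hi0 : i ≠ 0 := fun h => by simp [h] at hi
  have : (2 : L) * (i * s) = 0 := by linear_combination -hfix
  simp [hi0, hs0] at this

omit [CharZero L] in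
/-- A sum of two squares of fixed elements is a square of a fixed element. -/
private theorem exists_sq_add_sq (hcc : ∀ x, c (c x) = x) {i : L} (hi : i * i = -1)
    (hci : c i = -i) {a b : L} (ha : c a = a) (hb : c b = b) :
    ∃ n, c n = n ∧ n * n = a * a + b * b := by
  obtain ⟨z, hz⟩ := IsAlgClosed.exists_eq_mul_self (a + i * b)
  refine ⟨z * c z, by rw [map_mul, hcc, mul_comm], ?_⟩
  calc (z * c z) * (z * c z) = (z * z) * c (z * z) := by rw [map_mul]; ring
    _ = (a + i * b) * c (a + i * b) := by rw [← hz]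
    _ = a * a + b * b := by rw [map_add, map_mul, ha, hb, hci]; linear_combination (-(b * b)) * hi

/-- An involution `c ≠ 1` fixes no root of unity of odd prime order. -/
theorem not_fixed_of_isPrimitiveRoot (hcc : ∀ x, c (c x) = x) (hne : ∃ x, c x ≠ x)
    {p : ℕ} (hp : p.Prime) (hp2 : p ≠ 2) {ζ : L} (hζ : IsPrimitiveRoot ζ p) : c ζ ≠ ζ := by
  obtain ⟨i, hi⟩ := IsAlgClosed.exists_eq_mul_self (-1 : L)
  replace hi : i * i = -1 := hi.symm
  have hci : c i = -i := by
    have h : c i * c i = i * i := by rw [← map_mul, hi, map_neg, map_one]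
    exact (mul_self_eq_mul_self_iff.mp h).resolve_left (fixed_sq c hcc hne hi)
  intro hfix
  have hsum := hζ.geom_sum_eq_zero hp.one_lt
  have hodd : Odd p := hp.odd_of_ne_two hp2
  obtain ⟨k, hk⟩ := hodd
  set w := ζ ^ (k + 1) with hwdef
  have hw : w * w = ζ := by
    rw [hwdef, ← pow_add, show k + 1 + (k + 1) = p + 1 by omega, pow_succ, hζ.pow_eq_one, one_mul]
  have hcw : c w = w := by rw [hwdef, map_pow, hfix]
  have hmain : ∀ m : ℕ, ∃ n, c n = n ∧ n * n = ∑ j ∈ range m, ζ ^ (j + 1) := by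
    intro m
    induction m with
    | zero => exact ⟨0, map_zero _, by simp⟩
    | succ m ih =>
      obtain ⟨n, hn, hnn⟩ := ih
      obtain ⟨n', hn', hnn'⟩ := exists_sq_add_sq c hcc hi hci hn
        (show c (w ^ (m + 1)) = w ^ (m + 1) by rw [map_pow, hcw])
      refine ⟨n', hn', ?_⟩
      rw [hnn', hnn, sum_range_succ, ← mul_pow, hw]
  obtain ⟨n, hn, hnn⟩ := hmain (p - 1)
  have hn1 : n * n = -1 := by
    rw [hnn]
    rw [show p = (p - 1) + 1 by omega, sum_range_succ', pow_zero] at hsum
    linear_combination hsum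
  exact fixed_sq c hcc hne hn1 hn

/-- An involution `c ≠ 1` inverts roots of unity of odd prime order. -/
theorem apply_eq_inv_of_isPrimitiveRoot (hcc : ∀ x, c (c x) = x) (hne : ∃ x, c x ≠ x)
    {p : ℕ} (hp : p.Prime) (hp2 : p ≠ 2) {ζ : L} (hζ : IsPrimitiveRoot ζ p) : c ζ = ζ⁻¹ := by
  have : NeZero p := ⟨hp.ne_zero⟩
  have hcp : c ζ ^ p = 1 := by rw [← map_pow, hζ.pow_eq_one, map_one]
  have hprod : c (c ζ * ζ) = c ζ * ζ := by rw [map_mul, hcc, mul_comm]
  have hpow : (c ζ * ζ) ^ p = 1 := by rw [mul_pow, hcp, hζ.pow_eq_one, mul_one]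
  by_cases h : c ζ * ζ = 1
  · exact eq_inv_of_mul_eq_one_left h
  · obtain ⟨j, hj, hjeq⟩ := hζ.eq_pow_of_pow_eq_one hpow
    have hj0 : j ≠ 0 := by rintro rfl; simp at hjeq; exact h hjeq.symm
    have hprim : IsPrimitiveRoot (c ζ * ζ) p := by
      rw [← hjeq]
      exact hζ.pow_of_coprime j (Nat.coprime_of_lt_prime hj0 hj hp).symm
    exact absurd hprod (not_fixed_of_isPrimitiveRoot c hcc hne hp hp2 hprim)

end Fermat.Agent.CondLevel
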