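import Fermat.Prelude.Def_CuspForm_Newforms
import Mathlib.Data.Nat.Squarefree
import Mathlib.RingTheory.Radical.Basic

/-!
A good eigensystem occurs as a newform of a minimal level, and the level of a semistable model
is determined by its prime divisors.
-/

set_option autoImplicit false

noncomputable section

namespace Fermat.Agent.CondLevel

open CuspForm ModularFormClass UniqueFactorizationMonoid

/-- Among the levels dividing `N` at which the eigensystem of `f` away from `N` occurs, a minimal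
one carries a newform. -/
theorem exists_newform_of_eigenform {N : ℕ} (hN : N ≠ 0)
    (f : CuspForm (CongruenceSubgroup.Gamma0 N) 2) (hf : f.IsNormalizedEigenform) :
    ∃ M : ℕ, M ∣ N ∧ M ≠ 0 ∧ ∃ g : CuspForm (CongruenceSubgroup.Gamma0 M) 2,
      g.IsNewform ∧ ∀ ℓ : ℕ, ℓ.Prime → ¬ ℓ ∣ N → qCoeff g ℓ = qCoeff f ℓ := by
  classical
  have hex : ∃ M : ℕ, M ∣ N ∧ GoodEigensystemOccursAt f M :=
    ⟨N, dvd_rfl, GoodEigensystemOccursAt.refl hf⟩
  obtain ⟨hMN, g, hg, hgf⟩ := Nat.find_spec hex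
  have hM0 : Nat.find hex ≠ 0 := fun h0 => hN (Nat.eq_zero_of_zero_dvd (h0 ▸ hMN))
  refine ⟨_, hMN, hM0, g, ⟨hg, fun M' hM' hne ⟨g', hg', hg'g⟩ => ?_⟩, hgf⟩
  exact Nat.find_min hex
    (lt_of_le_of_ne (Nat.le_of_dvd (Nat.pos_of_ne_zero hM0) hM') hne)
    ⟨hM'.trans hMN, g', hg', fun ℓ hℓ hℓN =>
      (hg'g ℓ hℓ fun hd => hℓN (hd.trans hMN)).trans (hgf ℓ hℓ hℓN)⟩

theorem eq_conductorLevel (W : WeierstrassCurve ℤ) (hΔ : W.Δ ≠ 0) {M : ℕ} (hM : M ≠ 0)
    (h : ∀ q : ℕ, q.Prime → (q ∣ M → ¬ q ^ 2 ∣ M) ∧ (q ∣ M ↔ (q : ℤ) ∣ W.Δ)) :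
    M = radical W.Δ.natAbs := by
  have hsf : Squarefree M := by
    rw [Nat.squarefree_iff_prime_squarefree]
    exact fun q hq hd => (h q hq).1 ((dvd_mul_right q q).trans hd) (by rwa [sq])
  refine (Nat.Squarefree.ext_iff hsf squarefree_radical).mpr fun q hq => ?_
  rw [(h q hq).2, UniqueFactorizationMonoid.dvd_radical_iff_of_irreducible hq.prime.irreducible
    (Int.natAbs_ne_zero.mpr hΔ)]
  exact Int.natCast_dvd

end Fermat.Agent.CondLevel
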