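import Fermat.Agent.CondLevel.Transfer
import Fermat.Agent.CondLevel.Cyclo
import Fermat.Agent.ECTorsion.Galois
import Fermat.Agent.ECFrob.Main
import Fermat.Agent.ECLocal.Main
import Fermat.Prelude.Def_FLTPrelim_ModularRep
import Fermat.Prelude.Def_GaloisRep_ComplexConjugation

/-!
The torsion representations of an integral model, as needed for the level matching.
-/

set_option autoImplicit false

noncomputable section

open WeierstrassCurve WeierstrassCurve.Affine.Point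
open scoped WeierstrassCurve.Affine

namespace Fermat.Agent.CondLevel

local notation "GQ" => AlgebraicClosure ℚ ≃ₐ[ℚ] AlgebraicClosure ℚ

/-- `E[n](ℚ̄)`. -/
abbrev Tors (W : WeierstrassCurve ℤ) (n : ℕ) :=
  Submodule.torsionBy ℤ ((W.map (Int.castRingHom ℚ))⁄(AlgebraicClosure ℚ)).Point n

/-- The Galois representation on `E[n]`. -/
abbrev rhoTors (W : WeierstrassCurve ℤ) (n : ℕ) : GQ →* Module.End (ZMod n) (Tors W n) :=
  galoisRepModuleEnd (K := AlgebraicClosure ℚ) ℚ (W.map (Int.castRingHom ℚ)) n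

variable (W : WeierstrassCurve ℤ) (hΔ : W.Δ ≠ 0)

theorem delta_rat_ne_zero {hΔ : W.Δ ≠ 0} : (W.map (Int.castRingHom ℚ)).Δ ≠ 0 := by
  rw [WeierstrassCurve.map_Δ]; simpa using hΔ

include hΔ in
theorem finrank_tors (p : ℕ) [Fact p.Prime] : Module.finrank (ZMod p) (Tors W p) = 2 :=
  ECTorsion.finrank_torsionBy_qbar _ (delta_rat_ne_zero W (hΔ := hΔ)) p

include hΔ in
theorem moduleFinite_tors (p : ℕ) [Fact p.Prime] : Module.Finite (ZMod p) (Tors W p) :=
  Module.finite_of_finrank_eq_succ (finrank_tors W hΔ p)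

include hΔ in
theorem rhoTors_finiteLevel {n : ℕ} (hn : n ≠ 0) : GaloisFactorsThroughFiniteLevel (rhoTors W n) :=
  ECTorsion.galoisFactorsThroughFiniteLevel_galoisRepModuleEnd _
    (delta_rat_ne_zero W (hΔ := hΔ)) hn

include hΔ in
/-- An endomorphism `t • 1` killing everything has `t = 0`. -/
theorem eq_zero_of_smul_eq_zero {n : ℕ} (hn : n ≠ 0) (t : ZMod n)
    (h : ∀ x : Tors W n, t • x = 0) : t = 0 := by
  have hne : (n : AlgebraicClosure ℚ) ≠ 0 := Nat.cast_ne_zero.mpr hn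
  have hΔ' : algebraMap ℚ (AlgebraicClosure ℚ) (W.map (Int.castRingHom ℚ)).Δ ≠ 0 :=
    (map_ne_zero _).mpr (delta_rat_ne_zero W (hΔ := hΔ))
  obtain ⟨e⟩ := ECTorsion.nonempty_linearEquiv_torsionBy_baseChange
    (K := AlgebraicClosure ℚ) (W := W.map (Int.castRingHom ℚ)) hΔ' hne
  have h1 := congrArg (fun v => e v 0) (h (e.symm ![1, 0]))
  simpa using h1

include hΔ in
theorem frobenius_trace_det {ℓ p : ℕ} (hℓ : ℓ.Prime) [Fact p.Prime] (hℓp : ℓ ≠ p)
    (hgood : W.IsGoodPrimeFor ℓ) {A : ValuationSubring (AlgebraicClosure ℚ)}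
    (hA : A.LiesOverPrime ℓ) {σ : GQ} (hσ : A.IsFrobeniusAt σ ℓ) :
    LinearMap.trace (ZMod p) (Tors W p) (rhoTors W p σ) = (W.apOfModel ℓ : ZMod p) ∧
      LinearMap.det (rhoTors W p σ) = (ℓ : ZMod p) :=
  have _ := hΔ
  ⟨ECFrob.galoisTrace_eq_apOfModel W hℓ Fact.out hℓp hgood A hA σ hσ,
    ECFrob.galoisDet_eq_natCast W hℓ Fact.out hℓp hgood A hA σ hσ⟩

theorem frobenius_quadratic {ℓ n : ℕ} (hℓ : ℓ.Prime) (hℓn : ¬ ℓ ∣ n)
    (hgood : W.IsGoodPrimeFor ℓ) {A : ValuationSubring (AlgebraicClosure ℚ)}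
    (hA : A.LiesOverPrime ℓ) {σ : GQ} (hσ : A.IsFrobeniusAt σ ℓ) :
    rhoTors W n σ ^ 2 = (W.apOfModel ℓ : ZMod n) • rhoTors W n σ - (ℓ : ZMod n) • 1 := by
  refine LinearMap.ext fun x => ?_
  have h := ECFrob.smul_smul_sub_apOfModel_smul_add W hℓ hℓn hgood A hA σ hσ x
  rw [sq, Module.End.mul_apply, LinearMap.sub_apply, LinearMap.smul_apply, LinearMap.smul_apply,
    Module.End.one_apply, galoisRepModuleEnd_apply, galoisRepModuleEnd_apply,
    Int.cast_smul_eq_zsmul, Nat.cast_smul_eq_nsmul, ← natCast_zsmul]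
  rw [← sub_eq_zero, ← h]
  abel

include hΔ in
theorem inertia_unipotent {q n : ℕ} (hq : q.Prime)
    (hss : (q : ℤ) ∣ W.Δ → ¬ (q : ℤ) ∣ W.c₄) (hqn : ¬ q ∣ n)
    {A : ValuationSubring (AlgebraicClosure ℚ)} (hA : A.LiesOverPrime q) {σ : GQ}
    (hσ : σ ∈ A.inertiaSubgroupIn ℚ) :
    rhoTors W n σ ^ 2 = (2 : ZMod n) • rhoTors W n σ - 1 := by
  refine LinearMap.ext fun x => ?_
  have h := ECLocal.smul_smul_sub_eq_of_semistable W hΔ hq hss hqn hA hσ hσ x
  rw [smul_sub] at h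
  rw [sq, Module.End.mul_apply, LinearMap.sub_apply, LinearMap.smul_apply,
    Module.End.one_apply, galoisRepModuleEnd_apply, galoisRepModuleEnd_apply, two_smul]
  rw [sub_eq_iff_eq_add.mp h]
  abel

include hΔ in
/-- The determinant of `E[p]` is the cyclotomic character. -/
theorem det_rhoTors (p : ℕ) [Fact p.Prime] (σ : GQ) :
    LinearMap.det (rhoTors W p σ) = cycChar p σ := by
  have hp : p.Prime := Fact.out
  refine DFunLike.congr_fun (monoidHom_eq_of_frobenius (χ₁ := LinearMap.det.comp (rhoTors W p))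
    (χ₂ := cycChar p) (finiteLevel_comp (rhoTors_finiteLevel W hΔ hp.ne_zero) _)
    (cycChar_finiteLevel p) (insert p W.Δ.natAbs.primeFactors) ?_) σ
  intro ℓ hℓ hS A hA τ hτ
  rw [Finset.mem_insert, not_or, Nat.mem_primeFactors] at hS
  have hgood : W.IsGoodPrimeFor ℓ := fun hd => hS.2
    ⟨hℓ, Int.natCast_dvd.mp hd, Int.natAbs_ne_zero.mpr hΔ⟩
  rw [MonoidHom.comp_apply, (frobenius_trace_det W hΔ hℓ hS.1 hgood hA hτ).2,
    cycChar_frobenius p hℓ (fun hd => hS.1 ((Nat.prime_dvd_prime_iff_eq hℓ hp).mp hd)) hA hτ]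

include hΔ in
theorem det_rhoTors_involution (p : ℕ) [Fact p.Prime] (hp2 : p ≠ 2) {c : GQ} (hcc : c * c = 1)
    (hne : c ≠ 1) : LinearMap.det (rhoTors W p c) = -1 := by
  rw [det_rhoTors W hΔ, cycChar_involution hp2 hcc hne]

theorem complexConjugation_ne_one : complexConjugation ≠ 1 := by
  intro h
  obtain ⟨i, hi⟩ := IsAlgClosed.exists_eq_mul_self (-1 : AlgebraicClosure ℚ)
  have h1 := complexEmbedding_complexConjugation i
  rw [h, AlgEquiv.one_apply] at h1
  obtain ⟨r, hr⟩ := Complex.conj_eq_iff_real.mp h1.symm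
  have h2 : ((r * r : ℝ) : ℂ) = ((-1 : ℝ) : ℂ) := by
    push_cast
    rw [← hr, ← map_mul, ← hi, map_neg, map_one]
  have h3 : r * r = -1 := Complex.ofReal_injective h2
  nlinarith [mul_self_nonneg r]

end Fermat.Agent.CondLevel
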