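import Fermat.Agent.CondLevel.MultData
import Fermat.Agent.CondLevel.Torsion
import Fermat.Agent.ECTorsion.Count

/-!
Frobenius at a multiplicative prime `q` has trace `±(q + 1)` on `E[p]` for odd primes `p ≠ q`.
-/

set_option autoImplicit false

noncomputable section

open WeierstrassCurve WeierstrassCurve.Affine.Point
open scoped WeierstrassCurve.Affine

namespace Fermat.Agent.CondLevel

local notation "Qb" => AlgebraicClosure ℚ

variable {W : WeierstrassCurve ℤ} {A : ValuationSubring Qb} {d : NodeData Qb}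

/-- A decomposition element moves every point near the node to one on the same side as `±` it. -/
theorem exists_sign (hd : d.Valid A ((W.map (Int.castRingHom ℚ))⁄Qb))
    {σ : Qb ≃ₐ[ℚ] Qb} (hσ : σ ∈ A.decompositionSubgroup ℚ)
    (hx : σ d.x₀ = d.x₀) (hy : σ d.y₀ = d.y₀)
    (hα : (σ d.α₁ = d.α₁ ∧ σ d.α₂ = d.α₂) ∨ (σ d.α₁ = d.α₂ ∧ σ d.α₂ = d.α₁)) :
    ∃ z : ℤ, (z = 1 ∨ z = -1) ∧
      ∀ P : ((W.map (Int.castRingHom ℚ))⁄Qb).Point,
        ¬ d.OffNode A _ P → d.OffNode A _ (σ • P - z • P) := by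
  rcases hα with ⟨h1, h2⟩ | ⟨h1, h2⟩
  · refine ⟨1, Or.inl rfl, fun P hP => ?_⟩
    rcases P with _ | ⟨x, y, h⟩
    · exact absurd trivial hP
    have hX : A.valuation (x - d.x₀) < 1 := not_le.mp hP
    rw [one_smul, algEquiv_smul_def, Affine.Point.map_some]
    refine offNode_sub hd _ h ?_ hX ?_ ?_
    · show A.valuation (σ x - d.x₀) < 1
      rw [← hx, ← map_sub, val_apply_eq hσ]; exact hX
    · rw [show d.u (σ.toAlgHom x) (σ.toAlgHom y) = σ (d.u x y) by
        simp [NodeData.u, hx, hy, h1], val_apply_eq hσ]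
    · rw [show d.w (σ.toAlgHom x) (σ.toAlgHom y) = σ (d.w x y) by
        simp [NodeData.w, hx, hy, h2], val_apply_eq hσ]
  · refine ⟨-1, Or.inr rfl, fun P hP => ?_⟩
    rcases P with _ | ⟨x, y, h⟩
    · exact absurd trivial hP
    have hX : A.valuation (x - d.x₀) < 1 := not_le.mp hP
    rw [neg_smul, one_smul, algEquiv_smul_def, Affine.Point.map_some, Affine.Point.neg_some]
    refine offNode_sub hd _ _ ?_ hX ?_ ?_
    · show A.valuation (σ x - d.x₀) < 1
      rw [← hx, ← map_sub, val_apply_eq hσ]; exact hX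
    · rw [hd.u_neg, Valuation.map_neg,
        show d.u (σ.toAlgHom x) (σ.toAlgHom y) = σ (d.w x y) by
          simp [NodeData.u, NodeData.w, hx, hy, h2], val_apply_eq hσ]
    · rw [hd.w_neg, Valuation.map_neg,
        show d.w (σ.toAlgHom x) (σ.toAlgHom y) = σ (d.u x y) by
          simp [NodeData.u, NodeData.w, hx, hy, h1], val_apply_eq hσ]

/-- Few torsion points lie away from the node. -/
theorem natCard_offNode {p : ℕ} [Fact p.Prime] (hp2 : p ≠ 2) {R : ℕ}
    (hR : ((((W.map (Int.castRingHom ℚ))⁄Qb).preΨ' p).roots.toFinset.filter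
      fun x => 1 ≤ A.valuation (x - d.x₀)).card ≤ R) :
    Nat.card {P : Tors W p // d.OffNode A _ (P : ((W.map (Int.castRingHom ℚ))⁄Qb).Point)} ≤
      2 * R + 1 := by
  classical
  set V := (W.map (Int.castRingHom ℚ))⁄Qb with hV
  have hp : p.Prime := Fact.out
  have hpK : ((p : ℕ) : Qb) ≠ 0 := Nat.cast_ne_zero.mpr hp.ne_zero
  set F := (V.preΨ' p).roots.toFinset.filter fun x => 1 ≤ A.valuation (x - d.x₀) with hF
  let T : Finset (Option (Qb × Qb)) := insert none
    ((F.biUnion fun x => ((Polynomial.X ^ 2 + Polynomial.C (V.a₁ * x + V.a₃) * Polynomial.X -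
      Polynomial.C (x ^ 3 + V.a₂ * x ^ 2 + V.a₄ * x + V.a₆)).roots.toFinset).image
        fun y => (x, y)).image Option.some)
  let f : {P : Tors W p // d.OffNode A _ (P : V.toAffine.Point)} → Option (Qb × Qb) := fun P =>
    match (P.1.1 : V.toAffine.Point) with
    | .zero => none
    | .some x y _ => Option.some (x, y)
  have hmem : ∀ P, f P ∈ T := by
    rintro ⟨⟨P, hP⟩, hoff⟩
    rcases P with _ | ⟨x, y, h⟩
    · simp [f, T]
    · refine Finset.mem_insert_of_mem (Finset.mem_image_of_mem _ (Finset.mem_biUnion.mpr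
        ⟨x, Finset.mem_filter.mpr ⟨?_, hoff⟩, Finset.mem_image_of_mem _ ?_⟩))
      · have hroot := (ECTorsion.some_mem_torsionBy_iff h p).mp hP
        have hodd : ¬ Even p := Nat.not_even_iff_odd.mpr (hp.odd_of_ne_two hp2)
        rw [WeierstrassCurve.ΨSq_ofNat, if_neg hodd, mul_one, Polynomial.eval_pow] at hroot
        rw [Multiset.mem_toFinset, Polynomial.mem_roots (V.preΨ'_ne_zero hpK)]
        exact eq_zero_of_pow_eq_zero hroot
      · rw [Multiset.mem_toFinset, Polynomial.mem_roots (fun h0 => by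
          have := congrArg (fun q => q.coeff 2) h0
          simp [-map_add, -map_mul, -map_pow] at this)]
        have := (Affine.equation_iff _ _).mp h.1
        simp
        linear_combination this
  have hinj : Function.Injective f := by
    rintro ⟨⟨P, hP⟩, hoff⟩ ⟨⟨P', hP'⟩, hoff'⟩ heq
    rcases P with _ | ⟨x, y, h⟩ <;> rcases P' with _ | ⟨x', y', h'⟩ <;>
      simp only [f, reduceCtorEq, Option.some.injEq, Prod.mk.injEq] at heq
    · rfl
    · obtain ⟨rfl, rfl⟩ := heq; rfl
  calc Nat.card {P : Tors W p // d.OffNode A _ (P : V.toAffine.Point)}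
      ≤ Nat.card T := Nat.card_le_card_of_injective (fun P => ⟨f P, hmem P⟩)
        fun a b hab => hinj (congrArg Subtype.val hab)
    _ = T.card := by rw [Nat.card_eq_fintype_card, Fintype.card_coe]
    _ ≤ _ := (Finset.card_insert_le _ _).trans (Nat.add_le_add_right ?_ 1)
  refine Finset.card_image_le.trans (Finset.card_biUnion_le.trans ?_)
  calc _ ≤ ∑ _x ∈ F, 2 := Finset.sum_le_sum fun x _ =>
        Finset.card_image_le.trans ((Multiset.toFinset_card_le _).trans
          ((Polynomial.card_roots' _).trans (by compute_degree!)))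
    _ ≤ 2 * R := by rw [Finset.sum_const, smul_eq_mul, mul_comm]; omega

/-- Frobenius at a multiplicative prime has trace `±(q + 1)`. -/
theorem multFrobenius_trace (W : WeierstrassCurve ℤ) (hΔ : W.Δ ≠ 0) {q p : ℕ} (hq : q.Prime)
    [Fact p.Prime] (hp2 : p ≠ 2) (hqp : q ≠ p) (hd : (q : ℤ) ∣ W.Δ) (hc : ¬ (q : ℤ) ∣ W.c₄)
    {A : ValuationSubring Qb} (hA : A.LiesOverPrime q) {σ : Qb ≃ₐ[ℚ] Qb}
    (hσ : A.IsFrobeniusAt σ q) :
    LinearMap.trace (ZMod p) (Tors W p) (rhoTors W p σ) = (q + 1 : ZMod p) ∨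
      LinearMap.trace (ZMod p) (Tors W p) (rhoTors W p σ) = -(q + 1 : ZMod p) := by
  classical
  have hp : p.Prime := Fact.out
  have := moduleFinite_tors W hΔ p
  have : Finite (Tors W p) := Module.finite_of_finite (ZMod p)
  obtain ⟨d, hdv, hnear, hstab⟩ := exists_nodeData W hA hq hd hc
  obtain ⟨hx, hy, hα⟩ := hstab σ hσ.mem_decompositionSubgroup
  obtain ⟨z, hz, hzoff⟩ := exists_sign hdv hσ.mem_decompositionSubgroup hx hy hα
  have hroots := card_roots_away W hA hq hd hc hp hqp hp2 hnear
  set R := ((((W.map (Int.castRingHom ℚ))⁄Qb).preΨ' p).roots.toFinset.filter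
    fun x => 1 ≤ A.valuation (x - d.x₀)).card
  have hoff := natCard_offNode (A := A) (d := d) (W := W) hp2 (R := R) le_rfl
  set T := rhoTors W p σ - (z : ZMod p) • 1 with hT
  have hdet : LinearMap.det T = 0 := by
    by_contra hne
    have hinj : Function.Injective T := by
      rw [← LinearMap.ker_eq_bot]
      by_contra hker
      exact hne (LinearMap.det_eq_zero_iff_ker_ne_bot.mpr hker)
    set Off : Tors W p → Prop := fun P =>
      d.OffNode A _ (P : ((W.map (Int.castRingHom ℚ))⁄Qb).Point)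
    have hmap : ∀ P : {P // ¬ Off P}, Off (T P.1) := by
      rintro ⟨P, hP⟩
      have := hzoff _ hP
      show d.OffNode A _ _
      convert this using 1
      rw [hT, LinearMap.sub_apply, LinearMap.smul_apply, Module.End.one_apply,
        galoisRepModuleEnd_apply, Int.cast_smul_eq_zsmul, Submodule.coe_sub, Submodule.coe_smul]
      rfl
    have hle := Nat.card_le_card_of_injective (fun P : {P // ¬ Off P} => (⟨T P.1, hmap P⟩ : {P // Off P}))
      (fun a b hab => Subtype.ext (hinj (congrArg Subtype.val hab)))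
    have htot : Nat.card {P // Off P} + Nat.card {P // ¬ Off P} = p ^ 2 := by
      have := Fintype.ofFinite (Tors W p)
      rw [← Nat.card_sum, Nat.card_congr (Equiv.sumCompl Off), Module.natCard_eq_pow_finrank
        (K := ZMod p), Nat.card_zmod, finrank_tors W hΔ p]
    have hp3 : 3 * 3 ≤ p ^ 2 := by
      rw [sq]; exact Nat.mul_le_mul (by have := hp.two_le; omega) (by have := hp.two_le; omega)
    have hn := nodeOrder_spec p
    rw [← sq] at hn
    have : p % 2 = 1 := Nat.odd_iff.mp (hp.odd_of_ne_two hp2)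
    change Nat.card {P // Off P} ≤ 2 * R + 1 at hoff
    omega
  have h2 := finrank_tors W hΔ p
  have hsq := sq_eq_of_finrank_two h2 (rhoTors W p σ)
  have hdetσ : LinearMap.det (rhoTors W p σ) = (q : ZMod p) := by
    rw [det_rhoTors W hΔ, cycChar_frobenius p hq
      (fun h => hqp ((Nat.prime_dvd_prime_iff_eq hq hp).mp h)) hA hσ]
  have hdet' : LinearMap.det T = (z : ZMod p) ^ 2
      - LinearMap.trace (ZMod p) _ (rhoTors W p σ) * z + LinearMap.det (rhoTors W p σ) := by
    have b := basisTwo h2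
    rw [← LinearMap.det_toMatrix b, ← LinearMap.det_toMatrix b (rhoTors W p σ),
      LinearMap.trace_eq_matrix_trace _ b, hT, map_sub, map_smul, LinearMap.toMatrix_one,
      Matrix.det_fin_two, Matrix.det_fin_two, Matrix.trace_fin_two]
    simp
    ring
  rw [hdet, hdetσ] at hdet'
  rcases hz with rfl | rfl
  · left; push_cast at hdet'; linear_combination hdet'
  · right; push_cast at hdet'; linear_combination -hdet'

end Fermat.Agent.CondLevel
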