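import Fermat.Agent.CondLevel.Inputs
import Fermat.Agent.CondLevel.Compare
import Fermat.Agent.CondLevel.LevelMin
import Fermat.Agent.CondLevel.AlgInt
import Fermat.Agent.CondLevel.Count
import Fermat.Agent.CondLevel.MultFrob
import Fermat.Agent.Eigen.Dictionary
import Fermat.Agent.Eigen.Bound
import Fermat.Prelude.Def_WeierstrassCurve_ConductorLevel
import Mathlib.NumberTheory.Padics.RingHoms

/-!
Conductor–level matching (S58) from S29, S35 and S36.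
-/

set_option autoImplicit false

noncomputable section

open Polynomial WeierstrassCurve CuspForm ModularFormClass

namespace Fermat.Agent.CondLevel

/-- The situation after passing to a newform. -/
structure Setup (W : WeierstrassCurve ℤ) (N M : ℕ)
    (g : CuspForm (CongruenceSubgroup.Gamma0 M) 2) : Prop where
  delta_ne : W.Δ ≠ 0
  semistable : W.IsSemistableModel
  level_ne : N ≠ 0
  dvd : M ∣ N
  newform : g.IsNewform
  bad : ∀ ℓ : ℕ, ℓ.Prime → (ℓ : ℤ) ∣ W.Δ → ℓ ∣ N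
  agree : ∀ ℓ : ℕ, ℓ.Prime → ¬ ℓ ∣ N → qCoeff g ℓ = (W.apOfModel ℓ : ℂ)

variable {W : WeierstrassCurve ℤ} {N M : ℕ} {g : CuspForm (CongruenceSubgroup.Gamma0 M) 2}

theorem Setup.M_ne (h : Setup W N M g) : M ≠ 0 :=
  fun h0 => h.level_ne (Nat.eq_zero_of_zero_dvd (h0 ▸ h.dvd))

/-- Congruence of `a_q(g)` with the trace of Frobenius on `E[l]`. -/
theorem Setup.coeff_congr (h : Setup W N M g) (h29 : ResidualAttachment) {l q : ℕ} (hl : l.Prime)
    (hq : q.Prime) (hql : q ≠ l) (hqM : ¬ q ∣ M) :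
    ∃ (a : integralClosure ℤ ℂ) (𝔪 : Ideal (integralClosure ℤ ℂ)),
      (a : ℂ) = qCoeff g q ∧ 𝔪.IsMaximal ∧ (l : integralClosure ℤ ℂ) ∈ 𝔪 ∧
      ∃ (A : ValuationSubring (AlgebraicClosure ℚ))
        (σ : AlgebraicClosure ℚ ≃ₐ[ℚ] AlgebraicClosure ℚ),
        A.LiesOverPrime q ∧ A.IsFrobeniusAt σ q ∧ ∀ t : ℤ,
          LinearMap.trace (ZMod l) (Tors W l) (rhoTors W l σ) = (t : ZMod l) →
            a - (t : integralClosure ℤ ℂ) ∈ 𝔪 := by
  have : Fact l.Prime := ⟨hl⟩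
  obtain ⟨𝔪, h𝔪, hl𝔪⟩ := FLTPrelim.exists_maximalIdeal_natCast_prime_mem hl
  let k := integralClosure ℤ ℂ ⧸ 𝔪
  let : Field k := Ideal.Quotient.field 𝔪
  have : CharP k l := by
    refine (CharP.charP_iff_prime_eq_zero hl).mpr ?_
    rw [← map_natCast (Ideal.Quotient.mk 𝔪)]
    exact Ideal.Quotient.eq_zero_iff_mem.mpr hl𝔪
  obtain ⟨ρ, hρ, -⟩ := h29 h.newform.1 hl (Ideal.Quotient.mk 𝔪 : integralClosure ℤ ℂ →+* k)
  have hne : ∀ {r : ℕ}, r.Prime → r ≠ l → (r : k) ≠ 0 := fun hr hrl h0 =>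
    hrl ((Nat.prime_dvd_prime_iff_eq hl hr).mp ((CharP.cast_eq_zero_iff k l _).mp h0)).symm
  have hS : AtFrobeniusOutside (insert l N.primeFactors) fun σ => ∀ ℓ : ℕ, ℓ.Prime →
      ℓ ∉ insert l N.primeFactors → ∀ A : ValuationSubring (AlgebraicClosure ℚ),
      A.LiesOverPrime ℓ → A.IsFrobeniusAt σ ℓ →
        LinearMap.charpoly (ρ.ρ σ) = X ^ 2 - C (W.apOfModel ℓ : k) * X + C (ℓ : k) := by
    intro _ _ _ _ _ σ _ ℓ hℓ hℓS A hA hσ
    rw [Finset.mem_insert, not_or, Nat.mem_primeFactors] at hℓS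
    have hℓN : ¬ ℓ ∣ N := fun hd => hℓS.2 ⟨hℓ, hd, h.level_ne⟩
    obtain ⟨a, ha, hcp⟩ := hρ ℓ hℓ (fun hd => hℓN (hd.trans h.dvd)) (hne hℓ hℓS.1) A hA σ hσ
    have : a = (W.apOfModel ℓ : integralClosure ℤ ℂ) :=
      Subtype.ext (by rw [ha, h.agree ℓ hℓ hℓN]; simp)
    rw [hcp, this, map_intCast]
  obtain ⟨A, σ, hA, hσ⟩ := Galois.exists_place_isFrobeniusAt hq
  obtain ⟨a, ha, hcp⟩ := hρ q hq hqM (hne hq hql) A hA σ hσ
  refine ⟨a, 𝔪, ha, h𝔪, hl𝔪, A, σ, hA, hσ, fun t ht => ?_⟩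
  have h1 := (residual_trace_det_eq W h.delta_ne l ρ _ (Finset.mem_insert_self _ _)
    (fun ℓ hℓ hd => Finset.mem_insert_of_mem
      (Nat.mem_primeFactors.mpr ⟨hℓ, h.bad ℓ hℓ hd, h.level_ne⟩)) hS σ).1
  rw [(trace_det_of_charpoly ρ.finrank_eq _ hcp).1, ht, map_intCast] at h1
  rw [← Ideal.Quotient.eq_zero_iff_mem, map_sub, map_intCast]
  exact sub_eq_zero.mpr h1

/-- `a_q(g) = a_q(W)` at all good primes not dividing the level of `g`. -/
theorem Setup.coeff_eq_of_good (h : Setup W N M g) (h29 : ResidualAttachment) {q : ℕ}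
    (hq : q.Prime) (hgood : W.IsGoodPrimeFor q) (hqM : ¬ q ∣ M) :
    qCoeff g q = (W.apOfModel q : ℂ) := by
  obtain ⟨l₀, hl₀, hl₀p⟩ := Nat.exists_infinite_primes (q + 1)
  obtain ⟨a, -, ha, -⟩ := h.coeff_congr h29 hl₀p hq (by omega) hqM
  suffices a - (W.apOfModel q : integralClosure ℤ ℂ) = 0 by
    rw [← ha, sub_eq_zero.mp this]; simp
  refine algInt_eq_zero_of_mem_infinitely_many _ q fun l hl hql => ?_
  have : Fact l.Prime := ⟨hl⟩
  obtain ⟨a', 𝔪, ha', h𝔪, hl𝔪, A, σ, hA, hσ, hcong⟩ := h.coeff_congr h29 hl hq hql.ne hqM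
  obtain rfl : a' = a := Subtype.ext (ha'.trans ha.symm)
  exact ⟨𝔪, h𝔪, hl𝔪,
    hcong _ (frobenius_trace_det W h.delta_ne hq hql.ne hgood hA hσ).1⟩

/-- A bad prime divides the level of `g`. -/
theorem Setup.bad_dvd (h : Setup W N M g) [NeZero M] (h29 : ResidualAttachment)
    {q : ℕ} (hq : q.Prime)
    (hqΔ : (q : ℤ) ∣ W.Δ) : q ∣ M := by
  by_contra hqM
  obtain ⟨l₀, hl₀, hl₀p⟩ := Nat.exists_infinite_primes (q + 1)
  obtain ⟨a, -, ha, -⟩ := h.coeff_congr h29 hl₀p hq (by omega) hqM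
  have hz : (a - ((q + 1 : ℤ) : integralClosure ℤ ℂ)) *
      (a - ((-(q + 1) : ℤ) : integralClosure ℤ ℂ)) = 0 := by
    refine algInt_eq_zero_of_mem_infinitely_many _ q fun l hl hql => ?_
    have : Fact l.Prime := ⟨hl⟩
    obtain ⟨a', 𝔪, ha', h𝔪, hl𝔪, A, σ, hA, hσ, hcong⟩ := h.coeff_congr h29 hl hq hql.ne hqM
    obtain rfl : a' = a := Subtype.ext (ha'.trans ha.symm)
    refine ⟨𝔪, h𝔪, hl𝔪, ?_⟩
    rcases multFrobenius_trace W h.delta_ne hq (p := l) (by have := hq.two_le; omega) hql.ne hqΔ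
      (h.semistable q hq hqΔ) hA hσ with ht | ht
    · exact 𝔪.mul_mem_right _ (hcong _ (ht.trans (by push_cast; ring)))
    · exact 𝔪.mul_mem_left _ (hcong _ (ht.trans (by push_cast; ring)))
  have hlt := Eigen.norm_qCoeff_lt h.newform.1 hq hqM
  rw [← ha] at hlt
  have hnorm : ∀ s : ℤ, a = (s : integralClosure ℤ ℂ) → ‖(a : ℂ)‖ = |(s : ℝ)| := fun s hs => by
    rw [hs]; simp
  rcases mul_eq_zero.mp hz with h1 | h1
  · rw [hnorm _ (sub_eq_zero.mp h1)] at hlt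
    push_cast at hlt
    linarith [le_abs_self ((q : ℝ) + 1)]
  · rw [hnorm _ (sub_eq_zero.mp h1)] at hlt
    push_cast at hlt
    linarith [neg_le_abs (-((q : ℝ) + 1))]

/-- The adic data at `l` attached to the setup. -/
theorem Setup.exists_adicData (h : Setup W N M g) [NeZero M] (l : ℕ) [Fact l.Prime] :
    ∃ (chig : CuspForm.heckeAlgebra M 2 (↑(insert l N.primeFactors) : Set ℕ) →+* ℂ)
      (iota : chig.range →+* ℤ_[l]),
      (∀ (ℓ : ℕ) (hℓ : ℓ.Prime) (hℓM : ¬ ℓ ∣ M)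
        (hℓS : ℓ ∉ (↑(insert l N.primeFactors) : Set ℕ)),
        chig (CuspForm.heckeAlgebra.T hℓ hℓM hℓS) = qCoeff g ℓ ∧
        (iota.comp chig.rangeRestrict) (CuspForm.heckeAlgebra.T hℓ hℓM hℓS) =
          (W.apOfModel ℓ : ℤ_[l])) := by
  set S : Set ℕ := ↑(insert l N.primeFactors) with hS
  let chig := Eigen.eigenChar h.newform.1 S
  have hN : ∀ ℓ : ℕ, ℓ.Prime → ℓ ∉ S → ¬ ℓ ∣ N := fun ℓ hℓ hℓS hd =>
    hℓS (by
      rw [hS, Finset.coe_insert]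
      exact Set.mem_insert_of_mem _ (Nat.mem_primeFactors.mpr ⟨hℓ, hd, h.level_ne⟩))
  have hint : ∀ x : CuspForm.heckeAlgebra M 2 S, ∃ n : ℤ, chig x = n := by
    rintro ⟨x, hx⟩
    induction hx using Algebra.adjoin_induction with
    | mem x hx =>
      rcases hx with ⟨ℓ, hℓ, hℓM, hℓS, rfl⟩ | ⟨r, hrM, hr, hrS, rfl⟩
      · exact ⟨W.apOfModel ℓ,
          (Eigen.eigenChar_T h.newform.1 S hℓ hℓM hℓS).trans (h.agree ℓ hℓ (hN ℓ hℓ hℓS))⟩
      · exact absurd (hrM.trans h.dvd) (hN r hr hrS)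
    | algebraMap n =>
      refine ⟨n, ?_⟩
      rw [show (⟨algebraMap ℤ _ n, Subalgebra.algebraMap_mem _ n⟩ :
        ↥(CuspForm.heckeAlgebra M 2 S)) = (n : ↥(CuspForm.heckeAlgebra M 2 S)) from
          Subtype.ext (by simp), map_intCast]
    | add x y hx hy ihx ihy =>
      obtain ⟨m, hm⟩ := ihx
      obtain ⟨n, hn⟩ := ihy
      refine ⟨m + n, ?_⟩
      rw [show (⟨x + y, Subalgebra.add_mem _ hx hy⟩ : ↥(CuspForm.heckeAlgebra M 2 S)) =
        ⟨x, hx⟩ + ⟨y, hy⟩ from rfl, map_add, hm, hn, Int.cast_add]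
    | mul x y hx hy ihx ihy =>
      obtain ⟨m, hm⟩ := ihx
      obtain ⟨n, hn⟩ := ihy
      refine ⟨m * n, ?_⟩
      rw [show (⟨x * y, Subalgebra.mul_mem _ hx hy⟩ : ↥(CuspForm.heckeAlgebra M 2 S)) =
        ⟨x, hx⟩ * ⟨y, hy⟩ from rfl, map_mul, hm, hn, Int.cast_mul]
  have hle : chig.range ≤ (Int.castRingHom ℂ).range := by
    rintro _ ⟨x, rfl⟩
    obtain ⟨n, hn⟩ := hint x
    exact ⟨n, hn.symm⟩
  let e : ℤ ≃+* (Int.castRingHom ℂ).range :=
    RingEquiv.ofBijective _ ⟨fun a b hab => Int.cast_injective (congrArg Subtype.val hab),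
      (Int.castRingHom ℂ).rangeRestrict_surjective⟩
  refine ⟨chig, ((Int.castRingHom ℤ_[l]).comp e.symm.toRingHom).comp (Subring.inclusion hle),
    fun ℓ hℓ hℓM hℓS => ⟨Eigen.eigenChar_T h.newform.1 S hℓ hℓM hℓS, ?_⟩⟩
  have : chig.rangeRestrict (CuspForm.heckeAlgebra.T hℓ hℓM hℓS) =
      ((W.apOfModel ℓ : ℤ) : chig.range) :=
    Subtype.ext ((Eigen.eigenChar_T h.newform.1 S hℓ hℓM hℓS).trans
      (by rw [h.agree ℓ hℓ (hN ℓ hℓ hℓS)]; simp))
  rw [RingHom.comp_apply, this, map_intCast]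

/-- The primes of `N` and `l` form an admissible exceptional set. -/
theorem Setup.bad_mem (h : Setup W N M g) (l : ℕ) {ℓ : ℕ} (hℓ : ℓ.Prime) (hd : (ℓ : ℤ) ∣ W.Δ) :
    ℓ ∈ insert l N.primeFactors :=
  Finset.mem_insert_of_mem (Nat.mem_primeFactors.mpr ⟨hℓ, h.bad ℓ hℓ hd, h.level_ne⟩)

instance finite_residueField_padicInt (l : ℕ) [Fact l.Prime] :
    Finite (IsLocalRing.ResidueField ℤ_[l]) :=
  Finite.of_equiv _ (PadicInt.residueField (p := l)).symm.toEquiv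

theorem natCast_mem_maximalIdeal_padicInt (l : ℕ) [Fact l.Prime] :
    (l : ℤ_[l]) ∈ IsLocalRing.maximalIdeal ℤ_[l] := by
  rw [PadicInt.maximalIdeal_eq_span_p]
  exact Ideal.mem_span_singleton_self _

/-- A good prime does not divide the level of `g` exactly once. -/
theorem Setup.good_not_exact (h : Setup W N M g) [NeZero M] (h35 : SteinbergFrobenius) {q : ℕ}
    (hq : q.Prime) (hgood : W.IsGoodPrimeFor q) (hqM : q ∣ M) : q ^ 2 ∣ M := by
  by_contra hq2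
  obtain ⟨l, hl, hlp⟩ := Nat.exists_infinite_primes (4 * q + 4)
  have : Fact l.Prime := ⟨hlp⟩
  obtain ⟨chig, iota, hdata⟩ := h.exists_adicData l
  obtain ⟨O, _, _, _, _, _, _, _, _, hloc, -, ρ, hρ, hst⟩ := h35 h.newform l _ ℤ_[l]
    (natCast_mem_maximalIdeal_padicInt l) chig (fun ℓ hℓ hℓM hℓS => (hdata ℓ hℓ hℓM hℓS).1) iota
    (Finset.mem_insert_self _ _)
    (fun r hr hd => Finset.mem_insert_of_mem
      (Nat.mem_primeFactors.mpr ⟨hr, hd.trans h.dvd, h.level_ne⟩))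
  have hlO : (l : O) ∈ IsLocalRing.maximalIdeal O := by
    rw [← map_natCast (algebraMap ℤ_[l] O)]
    exact map_nonunit _ _ (natCast_mem_maximalIdeal_padicInt l)
  have : CharP (IsLocalRing.ResidueField O) l := charP_residueField l hlO
  have hF : HasFrobeniusOf W ρ (insert l N.primeFactors) := by
    intro _ _ _ _ _ σ _ ℓ hℓ hℓS A hA hσ
    have hℓM : ¬ ℓ ∣ M := fun hd => hℓS
      (Finset.mem_insert_of_mem (Nat.mem_primeFactors.mpr ⟨hℓ, hd.trans h.dvd, h.level_ne⟩))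
    rw [hρ ℓ hℓ hℓM (by simpa using hℓS) A hA σ hσ, (hdata ℓ hℓ hℓM _).2, map_intCast]
  obtain ⟨A, σ, hA, hσ⟩ := Galois.exists_place_isFrobeniusAt hq
  have h1 := (adic_residual_trace_det W h.delta_ne ρ l _ (Finset.mem_insert_self _ _)
    (fun ℓ => h.bad_mem l) hF σ).1
  rw [(frobenius_trace_det W h.delta_ne hq (by omega) hgood hA hσ).1, map_intCast] at h1
  have hb := apOfModel_bounds W hq
  have key : ∀ ε : ℤ, (ε = 1 ∨ ε = -1) →
      LinearMap.trace O ρ.V (ρ.ρ σ) = ((ε * (q + 1) : ℤ) : O) → False := by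
    intro ε hε ht
    rw [ht, map_intCast] at h1
    obtain ⟨c, hc⟩ : (l : ℤ) ∣ ε * (q + 1) - W.apOfModel q :=
      (CharP.intCast_eq_zero_iff (IsLocalRing.ResidueField O) l _).mp
        (by rw [Int.cast_sub, h1, sub_self])
    have hne := apOfModel_add_ne_zero W hq hε
    have hdvd := Int.le_of_dvd (abs_pos.mpr (sub_ne_zero.mpr (Ne.symm hne)))
      ((dvd_abs _ _).mpr ⟨c, hc⟩)
    rcases hε with rfl | rfl <;> simp only [le_abs] at hdvd <;>
      omega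
  rcases hst q hq (by omega) hqM hq2 A hA σ hσ with hc | hc
  · exact key 1 (Or.inl rfl)
      ((trace_det_of_charpoly ρ.finrank_eq _ hc).1.trans (by push_cast; ring))
  · refine key (-1) (Or.inr rfl) ((trace_det_of_charpoly ρ.finrank_eq _
      (t := -((q : O) + 1)) (d := (q : O)) ?_).1.trans (by push_cast; ring))
    rw [hc, map_neg, neg_mul, sub_neg_eq_add]

/-- No prime other than `p` divides the level of `g` exactly twice. -/
theorem Setup.not_sq (h : Setup W N M g) [NeZero M] (h36 : CarayolNotUnipotent) {p : ℕ}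
    [Fact p.Prime] (hp2 : p ≠ 2) (hirr : W.ModRepIsIrreducible p) {q : ℕ} (hq : q.Prime)
    (hqp : q ≠ p) : M.factorization q ≠ 2 := by
  intro hv
  obtain ⟨chig, iota, hdata⟩ := h.exists_adicData p
  have mkF : ∀ (O : Type) [CommRing O] [IsDomain O] [IsDiscreteValuationRing O] [CharZero O]
      [Algebra ℤ_[p] O] (ρ : GaloisRepAdic O),
      (∀ (ℓ : ℕ) (hℓ : ℓ.Prime) (_ : ℓ ≠ p) (hℓM : ¬ ℓ ∣ M)
        (hℓS : ℓ ∉ (↑(insert p N.primeFactors) : Set ℕ)),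
        ∀ A : ValuationSubring (AlgebraicClosure ℚ), A.LiesOverPrime ℓ →
          ∀ σ : AlgebraicClosure ℚ ≃ₐ[ℚ] AlgebraicClosure ℚ, A.IsFrobeniusAt σ ℓ →
            LinearMap.charpoly (ρ.ρ σ) = X ^ 2 - C (algebraMap ℤ_[p] O
              ((iota.comp chig.rangeRestrict) (CuspForm.heckeAlgebra.T hℓ hℓM hℓS))) * X
              + C ((ℓ : O))) →
      HasFrobeniusOf W ρ (insert p N.primeFactors) := by
    intro O _ _ _ _ _ ρ hρ _ _ _ _ _ σ _ ℓ hℓ hℓS A hA hσ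
    have hℓM : ¬ ℓ ∣ M := fun hd => hℓS
      (Finset.mem_insert_of_mem (Nat.mem_primeFactors.mpr ⟨hℓ, hd.trans h.dvd, h.level_ne⟩))
    rw [hρ ℓ hℓ (fun he => hℓS (he ▸ Finset.mem_insert_self _ _)) hℓM (by simpa using hℓS) A hA σ
      hσ, (hdata ℓ hℓ hℓM _).2, map_intCast]
  have hmem : ∀ (O : Type) [CommRing O] [IsLocalRing O] [Algebra ℤ_[p] O]
      [IsLocalHom (algebraMap ℤ_[p] O)], (p : O) ∈ IsLocalRing.maximalIdeal O := by
    intro O _ _ _ _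
    rw [← map_natCast (algebraMap ℤ_[p] O)]
    exact map_nonunit _ _ (natCast_mem_maximalIdeal_padicInt p)
  obtain ⟨O, _, _, _, _, _, _, _, _, _, -, ρ, hρ, hnu⟩ := h36 h.newform p _ ℤ_[p]
    (natCast_mem_maximalIdeal_padicInt p) hp2 chig (fun ℓ hℓ hℓM hℓS => (hdata ℓ hℓ hℓM hℓS).1)
    iota (Finset.mem_insert_self _ _)
    (fun r hr hd => Finset.mem_insert_of_mem
      (Nat.mem_primeFactors.mpr ⟨hr, hd.trans h.dvd, h.level_ne⟩))
    (by
      intro O _ _ _ _ _ _ _ _ _ _ ρ hρ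
      have : CharP (IsLocalRing.ResidueField O) p := charP_residueField p (hmem O)
      refine residual_isAbsolutelyIrreducible W h.delta_ne p hp2 hirr ρ.residual fun σ => ?_
      rw [(trace_det_residual ρ σ).1, (trace_det_residual ρ σ).2]
      exact adic_residual_trace_det W h.delta_ne ρ p _ (Finset.mem_insert_self _ _)
        (fun ℓ => h.bad_mem p) (mkF O ρ hρ) σ)
  exact hnu q hq hqp hv (isUnipotentOnInertiaAt W h.delta_ne ρ p (hmem O) hq hqp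
    (h.semistable q hq) _ (Finset.mem_insert_self _ _) (fun ℓ => h.bad_mem p)
    (mkF O ρ fun ℓ hℓ _ hℓM hℓS => hρ ℓ hℓ hℓM hℓS))

/-- Conductor–level matching. -/
theorem conductorLevel_matching (h29 : ResidualAttachment) (h35 : SteinbergFrobenius)
    (h36 : CarayolNotUnipotent)
    (W : WeierstrassCurve ℤ) (hss : W.IsSemistableModel) (N : ℕ)
    (p : ℕ) [Fact p.Prime] (hp2 : p ≠ 2) (hirr : W.ModRepIsIrreducible p)
    (hp2N : ¬ p ^ 2 ∣ N)
    (hN : W.IsModularModelOfLevel N) (hbad : ∀ ℓ : ℕ, ℓ.Prime → (ℓ : ℤ) ∣ W.Δ → ℓ ∣ N)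
    (hN3 : ∀ q : ℕ, q.Prime → ¬ q ^ 3 ∣ N) :
    W.IsModularModelOfLevel W.conductorLevel := by
  have hN0 : N ≠ 0 := fun h0 => hN3 2 Nat.prime_two (h0 ▸ dvd_zero _)
  have hΔ : W.Δ ≠ 0 := fun h0 => by
    obtain ⟨l, hl, hlp⟩ := Nat.exists_infinite_primes (N + 1)
    have := Nat.le_of_dvd (Nat.pos_of_ne_zero hN0) (hbad l hlp (h0 ▸ dvd_zero _))
    omega
  obtain ⟨f, hf, hfW⟩ := hN
  obtain ⟨M, hMN, hM0, g, hg, hgf⟩ := exists_newform_of_eigenform hN0 f hf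
  have h : Setup W N M g := ⟨hΔ, hss, hN0, hMN, hg, hbad, fun ℓ hℓ hℓN =>
    (hgf ℓ hℓ hℓN).trans (hfW ℓ hℓ (fun hd => hℓN (hbad ℓ hℓ hd)) hℓN)⟩
  have : NeZero M := ⟨hM0⟩
  have hsq : ∀ q : ℕ, q.Prime → ¬ q ^ 2 ∣ M := by
    intro q hq hd
    rcases eq_or_ne q p with rfl | hqp
    · exact hp2N (hd.trans hMN)
    · refine h.not_sq h36 hp2 hirr hq hqp (le_antisymm ?_ ((hq.pow_dvd_iff_le_factorization hM0).mp hd))
      by_contra hlt
      exact hN3 q hq (((hq.pow_dvd_iff_le_factorization hM0).mpr (by omega)).trans hMN)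
  have hiff : ∀ q : ℕ, q.Prime → (q ∣ M → ¬ q ^ 2 ∣ M) ∧ (q ∣ M ↔ (q : ℤ) ∣ W.Δ) := fun q hq =>
    ⟨fun _ => hsq q hq, fun hd => by_contra fun hgood => hsq q hq (h.good_not_exact h35 hq hgood hd),
      fun hd => h.bad_dvd h29 hq hd⟩
  have hM : M = W.conductorLevel := eq_conductorLevel W hΔ hM0 hiff
  subst hM
  exact ⟨g, hg.1, fun q hq hgood hqM => h.coeff_eq_of_good h29 hq hgood hqM⟩

end Fermat.Agent.CondLevel
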