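import Mathlib.AlgebraicGeometry.EllipticCurve.DivisionPolynomial.Degree

/-!
Division polynomials of a curve singular at `(r, *)`: `preΨ' n` vanishes at `r` to order at least
`n² / 3 - [n even]`. This is more than half of the degree.
-/

set_option autoImplicit false

open Polynomial

namespace Fermat.Agent.CondLevel

variable {R : Type*} [CommRing R] (V : WeierstrassCurve R) (r : R)

/-- `(r, *)` is a singular point, expressed through the invariants `b_i`. -/
structure NodeAt : Prop where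
  b₄_eq : V.b₄ = -(r * V.b₂) - 6 * r ^ 2
  b₆_eq : V.b₆ = -(2 * r * V.b₄) - r ^ 2 * V.b₂ - 4 * r ^ 3
  b₈_eq : V.b₈ = -(3 * r * V.b₆) - 3 * r ^ 2 * V.b₄ - r ^ 3 * V.b₂ - 3 * r ^ 4

variable {V r}

theorem Ψ₂Sq_node (h : NodeAt V r) :
    (X - C r) ^ 2 ∣ V.Ψ₂Sq := by
  refine ⟨4 * (X - C r) + C (V.b₂ + 12 * r), ?_⟩
  rw [WeierstrassCurve.Ψ₂Sq, h.b₆_eq, h.b₄_eq]
  simp only [map_add, map_sub, map_mul, map_neg, map_pow, map_ofNat]
  ring

theorem Ψ₃_node (h : NodeAt V r) : (X - C r) ^ 3 ∣ V.Ψ₃ := by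
  refine ⟨3 * (X - C r) + C (V.b₂ + 12 * r), ?_⟩
  rw [WeierstrassCurve.Ψ₃, h.b₈_eq, h.b₆_eq, h.b₄_eq]
  simp only [map_add, map_sub, map_mul, map_neg, map_pow, map_ofNat]
  ring

theorem preΨ₄_node (h : NodeAt V r) : (X - C r) ^ 5 ∣ V.preΨ₄ := by
  refine ⟨2 * (X - C r) + C (V.b₂ + 12 * r), ?_⟩
  rw [WeierstrassCurve.preΨ₄, h.b₈_eq, h.b₆_eq, h.b₄_eq]
  simp only [map_add, map_sub, map_mul, map_neg, map_pow, map_ofNat]
  ring

/-- The vanishing order used in the induction. -/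
def nodeOrder (n : ℕ) : ℕ := n ^ 2 / 3 - (1 - n % 2)

theorem nodeOrder_spec (n : ℕ) :
    n * n ≤ 3 * nodeOrder n + 1 + 3 * (1 - n % 2) := by
  have h : n * n % 3 ≤ 1 := by
    rw [Nat.mul_mod]
    obtain h | h | h : n % 3 = 0 ∨ n % 3 = 1 ∨ n % 3 = 2 := by omega
    all_goals simp [h]
  rw [nodeOrder, sq]
  generalize hq : n * n = q at *
  omega

theorem nodeOrder_le (n : ℕ) (hn : 2 ≤ n) :
    3 * nodeOrder n + 3 * (1 - n % 2) ≤ n * n := by
  have h : 2 * 2 ≤ n * n := Nat.mul_le_mul hn hn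
  rw [nodeOrder, sq]
  generalize hq : n * n = q at *
  omega

theorem pow_dvd_pow_mul₃ {A : Type*} [CommRing A] {a x y z : A} {e i j k u v w : ℕ}
    (hx : a ^ u ∣ x) (hy : a ^ v ∣ y) (hz : a ^ w ∣ z) (he : e ≤ u * i + v * j + w * k) :
    a ^ e ∣ x ^ i * y ^ j * z ^ k := by
  refine (pow_dvd_pow a he).trans ?_
  rw [pow_add, pow_add, pow_mul, pow_mul, pow_mul]
  exact mul_dvd_mul (mul_dvd_mul (pow_dvd_pow_of_dvd hx i) (pow_dvd_pow_of_dvd hy j))
    (pow_dvd_pow_of_dvd hz k)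

private theorem order_even (m : ℕ) :
    nodeOrder (2 * (m + 3)) ≤ nodeOrder (m + 2) * 2 + nodeOrder (m + 3) * 1 + nodeOrder (m + 5) * 1 ∧
    nodeOrder (2 * (m + 3)) ≤ nodeOrder (m + 1) * 1 + nodeOrder (m + 3) * 1 + nodeOrder (m + 4) * 2 := by
  have h1 := nodeOrder_spec (m + 1)
  have h2 := nodeOrder_spec (m + 2)
  have h3 := nodeOrder_spec (m + 3)
  have h4 := nodeOrder_spec (m + 4)
  have h5 := nodeOrder_spec (m + 5)
  have h0 := nodeOrder_le (2 * (m + 3)) (by omega)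
  have p0 : 2 * (m + 3) % 2 = 0 := by omega
  have p1 : (m + 1) % 2 = 1 - m % 2 := by omega
  have p2 : (m + 2) % 2 = m % 2 := by omega
  have p3 : (m + 3) % 2 = 1 - m % 2 := by omega
  have p4 : (m + 4) % 2 = m % 2 := by omega
  have p5 : (m + 5) % 2 = 1 - m % 2 := by omega
  obtain hm | hm := Nat.mod_two_eq_zero_or_one m <;>
    simp only [p0, p1, p2, p3, p4, p5, hm] at h0 h1 h2 h3 h4 h5 <;>
    norm_num at h0 h1 h2 h3 h4 h5 <;>
    ring_nf at h0 h1 h2 h3 h4 h5 ⊢ <;>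
    generalize hM : m ^ 2 = M at * <;>
    omega

private theorem order_odd (m : ℕ) :
    nodeOrder (2 * (m + 2) + 1) ≤
      nodeOrder (m + 4) * 1 + nodeOrder (m + 2) * 3 + (1 - m % 2) * 4 ∧
    nodeOrder (2 * (m + 2) + 1) ≤
      nodeOrder (m + 1) * 1 + nodeOrder (m + 3) * 3 + (m % 2) * 4 := by
  have h1 := nodeOrder_spec (m + 1)
  have h2 := nodeOrder_spec (m + 2)
  have h3 := nodeOrder_spec (m + 3)
  have h4 := nodeOrder_spec (m + 4)
  have h0 := nodeOrder_le (2 * (m + 2) + 1) (by omega)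
  have p0 : (2 * (m + 2) + 1) % 2 = 1 := by omega
  have p1 : (m + 1) % 2 = 1 - m % 2 := by omega
  have p2 : (m + 2) % 2 = m % 2 := by omega
  have p3 : (m + 3) % 2 = 1 - m % 2 := by omega
  have p4 : (m + 4) % 2 = m % 2 := by omega
  obtain hm | hm := Nat.mod_two_eq_zero_or_one m <;>
    simp only [p0, p1, p2, p3, p4, hm] at h0 h1 h2 h3 h4 ⊢ <;>
    norm_num at h0 h1 h2 h3 h4 ⊢ <;>
    ring_nf at h0 h1 h2 h3 h4 ⊢ <;>
    generalize hM : m ^ 2 = M at * <;>
    omega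

theorem pow_dvd_preΨ'_node (h : NodeAt V r) (n : ℕ) : (X - C r) ^ nodeOrder n ∣ V.preΨ' n := by
  induction n using normEDSRec with
  | zero => simp
  | one => simp [nodeOrder]
  | two => simp [nodeOrder]
  | three => simpa [nodeOrder] using Ψ₃_node h
  | four =>
    rw [WeierstrassCurve.preΨ'_four]
    exact (pow_dvd_pow _ (by simp [nodeOrder])).trans (preΨ₄_node h)
  | even m h1 h2 h3 h4 h5 =>
    rw [WeierstrassCurve.preΨ'_even]
    refine dvd_sub ?_ ?_
    · simpa only [pow_one] using pow_dvd_pow_mul₃ h2 h3 h5 (order_even m).1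
    · simpa only [pow_one] using pow_dvd_pow_mul₃ h1 h3 h4 (order_even m).2
  | odd m h1 h2 h3 h4 =>
    rw [WeierstrassCurve.preΨ'_odd]
    have h4' : (X - C r) ^ 4 ∣ V.Ψ₂Sq ^ 2 := (pow_mul (X - C r) 2 2) ▸
      pow_dvd_pow_of_dvd (Ψ₂Sq_node h) 2
    obtain hm | hm := Nat.mod_two_eq_zero_or_one m
    · have he : Even m := Nat.even_iff.mpr hm
      rw [if_pos he, if_pos he]
      refine dvd_sub ?_ ?_
      · simpa only [pow_one] using pow_dvd_pow_mul₃ (i := 1) (j := 3) (k := 1) (w := 4) h4 h2 h4'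
          (by have := (order_odd m).1; omega)
      · simpa only [pow_one] using pow_dvd_pow_mul₃ (i := 1) (j := 3) (k := 1) (w := 0) h1 h3
          (show (X - C r) ^ 0 ∣ (1 : R[X]) by simp) (by have := (order_odd m).2; omega)
    · have he : ¬ Even m := fun h => by rw [Nat.even_iff] at h; omega
      rw [if_neg he, if_neg he]
      refine dvd_sub ?_ ?_
      · simpa only [pow_one] using pow_dvd_pow_mul₃ (i := 1) (j := 3) (k := 1) (w := 0) h4 h2
          (show (X - C r) ^ 0 ∣ (1 : R[X]) by simp) (by have := (order_odd m).1; omega)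
      · simpa only [pow_one] using pow_dvd_pow_mul₃ (i := 1) (j := 3) (k := 1) (w := 4) h1 h3 h4'
          (by have := (order_odd m).2; omega)

end Fermat.Agent.CondLevel
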