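import Fermat.Agent.CondLevel.MultNode
import Fermat.Agent.CondLevel.MultPsi
import Fermat.Agent.Galois.Decomposition
import Mathlib.FieldTheory.IsAlgClosed.AlgebraicClosure
import Mathlib.Algebra.Polynomial.Splits

/-!
Node data of an integral model with multiplicative reduction, over a place of `ℚ̄`, and the count
of roots of `preΨ' p` away from the node.
-/

set_option autoImplicit false

noncomputable section

open Polynomial WeierstrassCurve

namespace Fermat.Agent.CondLevel

local notation "Qb" => AlgebraicClosure ℚ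

section Invariants

variable {R : Type*} [CommRing R] (V : WeierstrassCurve R)

/-- Numerator of the abscissa of the node. -/
def nodeNum : R := 18 * V.b₆ - V.b₂ * V.b₄

theorem node_b₄_identity :
    V.c₄ ^ 2 * V.b₄ + nodeNum V * V.b₂ * V.c₄ + 6 * nodeNum V ^ 2 = -72 * V.Δ := by
  simp only [nodeNum, c₄, Δ, b₂, b₄, b₆, b₈]; ring

theorem node_b₆_identity :
    V.c₄ ^ 3 * V.b₆ + 2 * nodeNum V * V.b₄ * V.c₄ ^ 2 + nodeNum V ^ 2 * V.b₂ * V.c₄
      + 4 * nodeNum V ^ 3 = 4 * V.Δ * V.c₆ := by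
  simp only [nodeNum, c₄, c₆, Δ, b₂, b₄, b₆, b₈]; ring

theorem node_b₈_identity :
    V.c₄ ^ 4 * V.b₈ + 3 * nodeNum V * V.b₆ * V.c₄ ^ 3 + 3 * nodeNum V ^ 2 * V.b₄ * V.c₄ ^ 2
      + nodeNum V ^ 3 * V.b₂ * V.c₄ + 3 * nodeNum V ^ 4
      = -(V.Δ * (V.c₄ ^ 3 - 432 * V.Δ)) := by
  simp only [nodeNum, c₄, Δ, b₂, b₄, b₆, b₈]; ring

theorem node_b₂_identity : V.b₂ * V.c₄ + 12 * nodeNum V = -V.c₆ := by
  simp only [nodeNum, c₄, c₆]; ring

/-- Over a field, a curve with `Δ = 0` and `c₄ ≠ 0` has a node at `nodeNum / c₄`. -/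
theorem nodeAt_of_delta_eq_zero {k : Type*} [Field k] (V : WeierstrassCurve k) (hΔ : V.Δ = 0)
    (hc : V.c₄ ≠ 0) : NodeAt V (nodeNum V / V.c₄) := by
  have h4 := node_b₄_identity V
  have h6 := node_b₆_identity V
  have h8 := node_b₈_identity V
  rw [hΔ] at h4 h6 h8
  refine ⟨?_, ?_, ?_⟩
  · field_simp
    linear_combination h4
  · field_simp
    linear_combination h6
  · field_simp
    linear_combination h8

end Invariants

section Place

variable {A : ValuationSubring Qb} {q : ℕ}

theorem val_intCast_le (A : ValuationSubring Qb) (n : ℤ) : A.valuation (n : Qb) ≤ 1 :=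
  (A.valuation_le_one_iff _).mpr (intCast_mem A n)

theorem val_intCast_lt (hA : A.LiesOverPrime q) {n : ℤ} (hn : (q : ℤ) ∣ n) :
    A.valuation (n : Qb) < 1 := by
  obtain ⟨m, rfl⟩ := hn
  push_cast
  rw [map_mul]
  exact mul_lt_one_of_nonneg_of_lt_one_left zero_le hA (val_intCast_le A m)

theorem val_intCast_eq (hA : A.LiesOverPrime q) (hq : q.Prime) {n : ℤ} (hn : ¬ (q : ℤ) ∣ n) :
    A.valuation (n : Qb) = 1 := by
  refine le_antisymm (val_intCast_le A n) ?_
  by_contra hlt
  rw [not_le] at hlt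
  exact hn ((Galois.place_intCast_mem_nonunits_iff hA hq n).mp hlt)

theorem exists_small_root {e u w : Qb} (he : A.valuation e ≤ 1) (hu : A.valuation u = 1)
    (hw : A.valuation w < 1) :
    ∃ t, e * t ^ 2 + u * t + w = 0 ∧ A.valuation t ≤ A.valuation w ∧
      ∀ t', e * t' ^ 2 + u * t' + w = 0 → A.valuation t' < 1 → t' = t := by
  have hu0 : u ≠ 0 := fun h => by rw [h, map_zero] at hu; exact zero_ne_one hu
  suffices ∃ t, e * t ^ 2 + u * t + w = 0 ∧ A.valuation t ≤ A.valuation w by
    obtain ⟨t, ht, htw⟩ := this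
    refine ⟨t, ht, htw, fun t' ht' ht'1 => by_contra fun hne => ?_⟩
    have hsum : e * (t + t') + u = 0 := by
      refine (mul_eq_zero.mp (show (t - t') * (e * (t + t') + u) = 0 by
        linear_combination ht - ht')).resolve_left fun h0 => hne (sub_eq_zero.mp h0).symm
    have hlt : A.valuation (e * (t + t')) < 1 := by
      rw [map_mul]
      exact lt_of_le_of_lt (mul_le_of_le_one_left zero_le he)
        (Valuation.map_add_lt _ (lt_of_le_of_lt htw hw) ht'1)
    rw [eq_neg_of_add_eq_zero_left hsum, Valuation.map_neg, hu] at hlt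
    exact lt_irrefl _ hlt
  by_cases he0 : e = 0
  · refine ⟨-w / u, by rw [he0]; field_simp; ring, ?_⟩
    rw [map_div₀, Valuation.map_neg, hu, div_one]
  obtain ⟨s, hs⟩ := IsAlgClosed.exists_eq_mul_self (u ^ 2 - 4 * e * w)
  set t₁ := (-u + s) / (2 * e) with ht₁
  set t₂ := (-u - s) / (2 * e) with ht₂
  have h1 : e * t₁ ^ 2 + u * t₁ + w = 0 := by
    rw [ht₁]; field_simp; linear_combination -hs
  have h2 : e * t₂ ^ 2 + u * t₂ + w = 0 := by
    rw [ht₂]; field_simp; linear_combination -hs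
  have hprod : e * t₁ * t₂ = w := by
    rw [ht₁, ht₂]; field_simp; linear_combination hs
  have hsum : e * t₁ + e * t₂ = -u := by
    rw [ht₁, ht₂]; field_simp; ring
  have hor : 1 ≤ A.valuation (e * t₁) ∨ 1 ≤ A.valuation (e * t₂) := by
    by_contra hcon
    simp only [not_or, not_le] at hcon
    have := Valuation.map_add_lt A.valuation hcon.1 hcon.2
    rw [hsum, Valuation.map_neg, hu] at this
    exact lt_irrefl _ this
  rcases hor with h | h
  · refine ⟨t₂, h2, ?_⟩
    rw [← hprod, map_mul]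
    exact le_mul_of_one_le_left zero_le h
  · refine ⟨t₁, h1, ?_⟩
    rw [← hprod, mul_right_comm, map_mul]
    exact le_mul_of_one_le_left zero_le h

/-- A decomposition element preserves valuations. -/
theorem val_apply_eq {σ : Qb ≃ₐ[ℚ] Qb} (hσ : σ ∈ A.decompositionSubgroup ℚ) (x : Qb) :
    A.valuation (σ x) = A.valuation x := by
  have hmono : ∀ (a b : Qb), A.valuation a < A.valuation b →
      A.valuation (σ a) < A.valuation (σ b) := by
    intro a b hab
    have hb : b ≠ 0 := fun h => by rw [h, map_zero] at hab; exact not_lt.mpr zero_le hab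
    have hab' : a / b ∈ A.nonunits := by
      show A.valuation (a / b) < 1
      rw [map_div₀, div_lt_one₀ (zero_lt_iff.mpr ((_root_.map_ne_zero _).mpr hb))]
      exact hab
    have hσab := (Galois.decomposition_apply_mem_nonunits_iff hσ).mpr hab'
    rw [map_div₀] at hσab
    have hσab' : A.valuation (σ a / σ b) < 1 := hσab
    rwa [map_div₀, div_lt_one₀ (zero_lt_iff.mpr
      ((_root_.map_ne_zero _).mpr ((_root_.map_ne_zero σ).mpr hb)))] at hσab'
  have hx : IsIntegral ℚ x := (AlgebraicClosure.isAlgebraic ℚ).isAlgebraic x |>.isIntegral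
  have hfin : (Set.range fun n : ℕ => (σ ^ n) x).Finite := by
    refine ((minpoly ℚ x).rootSet_finite Qb).subset ?_
    rintro _ ⟨n, rfl⟩
    rw [mem_rootSet_of_ne (minpoly.ne_zero hx), aeval_algEquiv, AlgHom.comp_apply, minpoly.aeval,
      map_zero]
  obtain ⟨i, -, j, -, hij, heq⟩ := Set.infinite_univ.exists_ne_map_eq_of_mapsTo
    (fun n _ => Set.mem_range_self (f := fun n : ℕ => (σ ^ n) x) n) hfin
  wlog hlt : i < j generalizing i j
  · exact this j i hij.symm heq.symm (lt_of_le_of_ne (not_lt.mp hlt) hij.symm)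
  obtain ⟨k, rfl⟩ := Nat.exists_eq_add_of_lt hlt
  have hper : (σ ^ (k + 1)) x = x := by
    apply (σ ^ i).injective
    rw [← AlgEquiv.mul_apply, ← pow_add, ← add_assoc]
    exact heq.symm
  by_contra hne
  rcases lt_or_gt_of_ne hne with h | h
  · have hdec : ∀ n, A.valuation ((σ ^ (n + 1)) x) < A.valuation x := by
      intro n
      induction n with
      | zero => simpa using h
      | succ n ih =>
        rw [pow_succ', AlgEquiv.mul_apply]
        exact (hmono _ _ ih).trans h
    exact (hdec k).ne (by rw [hper])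
  · have hinc : ∀ n, A.valuation x < A.valuation ((σ ^ (n + 1)) x) := by
      intro n
      induction n with
      | zero => simpa using h
      | succ n ih =>
        rw [pow_succ', AlgEquiv.mul_apply]
        exact h.trans (hmono _ _ ih)
    exact (hinc k).ne (by rw [hper])

end Place

section Node

variable (W : WeierstrassCurve ℤ) {A : ValuationSubring Qb} {q : ℕ}

/-- The approximate abscissa of the node. -/
def nodeApprox : Qb := ((nodeNum W : ℤ) : Qb) / (W.c₄ : Qb)

variable (hA : A.LiesOverPrime q) (hq : q.Prime) (hd : (q : ℤ) ∣ W.Δ) (hc : ¬ (q : ℤ) ∣ W.c₄)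

include hA hq hd hc in
/-- Node data over the place, stable under the decomposition group. -/
theorem exists_nodeData :
    ∃ d : NodeData Qb, d.Valid A ((W.map (Int.castRingHom ℚ))⁄Qb) ∧
      A.valuation (d.x₀ - nodeApprox W) < 1 ∧
      ∀ σ ∈ A.decompositionSubgroup ℚ, σ d.x₀ = d.x₀ ∧ σ d.y₀ = d.y₀ ∧
        ((σ d.α₁ = d.α₁ ∧ σ d.α₂ = d.α₂) ∨ (σ d.α₁ = d.α₂ ∧ σ d.α₂ = d.α₁)) := by
  have hC4 : A.valuation (W.c₄ : Qb) = 1 := val_intCast_eq hA hq hc
  have hC40 : (W.c₄ : Qb) ≠ 0 := fun h => by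
    rw [h, map_zero] at hC4; exact zero_ne_one hC4
  have hC6 : A.valuation (W.c₆ : Qb) = 1 := by
    refine val_intCast_eq hA hq fun h6 => hc ?_
    have hrel := W.c_relation
    have h3 : (q : ℤ) ∣ W.c₄ ^ 3 := by
      rw [show W.c₄ ^ 3 = 1728 * W.Δ + W.c₆ ^ 2 by linear_combination -hrel]
      exact dvd_add (dvd_mul_of_dvd_right hd _) (dvd_pow h6 two_ne_zero)
    exact (Nat.prime_iff_prime_int.mp hq).dvd_of_dvd_pow h3
  have hD : A.valuation (W.Δ : Qb) < 1 := val_intCast_lt hA hd
  set β : Qb := -((W.c₆ : Qb) / W.c₄) with hβ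
  set γ : Qb := -(72 * (W.Δ : Qb)) / (W.c₄ : Qb) ^ 2 with hγ
  have hβv : A.valuation β = 1 := by rw [hβ, Valuation.map_neg, map_div₀, hC6, hC4, div_one]
  have hint : ∀ n : ℕ, A.valuation (n : Qb) ≤ 1 := fun n => by
    simpa using val_intCast_le A n
  have hγv : A.valuation γ = A.valuation (72 * (W.Δ : Qb)) := by
    rw [hγ, map_div₀, map_pow, hC4, one_pow, div_one, Valuation.map_neg]
  have h72D : A.valuation (72 * (W.Δ : Qb)) < 1 := by
    rw [map_mul]; exact lt_of_le_of_lt (mul_le_of_le_one_left zero_le (by exact_mod_cast hint 72)) hD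
  have h6 : A.valuation (6 : Qb) ≤ 1 := by exact_mod_cast hint 6
  obtain ⟨t, ht, htw, huniq⟩ := exists_small_root h6 hβv (hγv ▸ h72D)
  rw [hγv] at htw
  set r := nodeApprox W with hr
  set x₀ := r + t with hx₀
  set V := (W.map (Int.castRingHom ℚ))⁄Qb with hV
  have ha₁ : V.a₁ = (W.a₁ : Qb) := by simp [hV, baseChange, WeierstrassCurve.map]
  have ha₂ : V.a₂ = (W.a₂ : Qb) := by simp [hV, baseChange, WeierstrassCurve.map]
  have ha₃ : V.a₃ = (W.a₃ : Qb) := by simp [hV, baseChange, WeierstrassCurve.map]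
  have ha₄ : V.a₄ = (W.a₄ : Qb) := by simp [hV, baseChange, WeierstrassCurve.map]
  have ha₆ : V.a₆ = (W.a₆ : Qb) := by simp [hV, baseChange, WeierstrassCurve.map]
  have hb2 : (W.b₂ : Qb) + 12 * r = β := by
    have := congrArg (fun z : ℤ => (z : Qb)) (node_b₂_identity W)
    push_cast at this
    rw [hβ, hr, nodeApprox]; field_simp; linear_combination this
  have hb4 : 6 * r ^ 2 + (W.b₂ : Qb) * r + (W.b₄ : Qb) = γ := by
    have := congrArg (fun z : ℤ => (z : Qb)) (node_b₄_identity W)
    push_cast at this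
    rw [hγ, hr, nodeApprox]; field_simp; linear_combination this
  have hb6 : 4 * r ^ 3 + (W.b₂ : Qb) * r ^ 2 + 2 * (W.b₄ : Qb) * r + (W.b₆ : Qb) =
      4 * W.Δ * W.c₆ / (W.c₄ : Qb) ^ 3 := by
    have := congrArg (fun z : ℤ => (z : Qb)) (node_b₆_identity W)
    push_cast at this
    rw [hr, nodeApprox]; field_simp; linear_combination this
  obtain ⟨δ, hδ⟩ := IsAlgClosed.exists_eq_mul_self (β + 12 * t)
  have ht1 : A.valuation t < 1 := lt_of_le_of_lt htw h72D
  have hδv : A.valuation δ = 1 := by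
    have h12t : A.valuation (12 * t) < 1 := by
      rw [map_mul]
      exact lt_of_le_of_lt (mul_le_of_le_one_left zero_le (by exact_mod_cast hint 12)) ht1
    have h1 : A.valuation (δ * δ) = 1 := by
      rw [← hδ, Valuation.map_add_eq_of_lt_left _ (hβv.symm ▸ h12t), hβv]
    rw [map_mul, ← sq] at h1
    exact (pow_eq_one_iff.mp h1).resolve_right two_ne_zero
  let d : NodeData Qb :=
    ⟨x₀, -(V.a₁ * x₀ + V.a₃) / 2, (-V.a₁ - δ) / 2, (-V.a₁ + δ) / 2⟩
  have hquad : 6 * x₀ ^ 2 + (W.b₂ : Qb) * x₀ + (W.b₄ : Qb) = 0 := by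
    rw [hx₀]; linear_combination ht + hb4 + t * hb2
  have hy₀ : 2 * d.y₀ + V.a₁ * d.x₀ + V.a₃ = 0 := by simp only [d]; ring
  have hB2 : (W.b₂ : Qb) = V.a₁ ^ 2 + 4 * V.a₂ := by rw [ha₁, ha₂, b₂]; push_cast; ring
  have hB4 : (W.b₄ : Qb) = 2 * V.a₄ + V.a₁ * V.a₃ := by rw [ha₁, ha₃, ha₄, b₄]; push_cast; ring
  have hB6 : (W.b₆ : Qb) = V.a₃ ^ 2 + 4 * V.a₆ := by rw [ha₃, ha₆, b₆]; push_cast; ring
  have hsq : δ ^ 2 = V.a₁ ^ 2 + 4 * (3 * x₀ + V.a₂) := by
    rw [hx₀]; linear_combination hB2 - hb2 - hδ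
  have hcst : d.cst V = W.Δ * W.c₆ / (W.c₄ : Qb) ^ 3 -
      (18 * (W.Δ : Qb) / (W.c₄ : Qb) ^ 2) * t - t ^ 3 / 2 := by
    have hg : 4 * d.cst V = 4 * x₀ ^ 3 + (W.b₂ : Qb) * x₀ ^ 2 + 2 * (W.b₄ : Qb) * x₀
        + (W.b₆ : Qb) := by
      rw [hB2, hB4, hB6]; simp only [NodeData.cst, d]; ring
    have hγ' : γ * t = -(4 * ((18 * (W.Δ : Qb) / (W.c₄ : Qb) ^ 2) * t)) := by rw [hγ]; ring
    refine mul_left_cancel₀ (by norm_num : (4 : Qb) ≠ 0) ?_
    rw [hg, hx₀]
    linear_combination hb6 + 2 * t * hb4 + t ^ 2 * hb2 + t * ht + hγ'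
  have hsmall : A.valuation (d.cst V) < 1 := by
    rw [hcst]
    refine Valuation.map_sub_lt _ (Valuation.map_sub_lt _ ?_ ?_) ?_
    · rw [map_div₀, map_mul, map_pow, hC4, hC6, one_pow, div_one, mul_one]; exact hD
    · rw [map_mul, map_div₀, map_mul, map_pow, hC4, one_pow, div_one]
      exact mul_lt_one_of_nonneg_of_lt_one_left zero_le
        (lt_of_le_of_lt (mul_le_of_le_one_left zero_le (by exact_mod_cast hint 18)) hD) ht1.le
    · have h2 : (0 : _) < A.valuation (2 : Qb) := zero_lt_iff.mpr ((_root_.map_ne_zero _).mpr two_ne_zero)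
      calc A.valuation (t ^ 3 / 2) ≤ A.valuation ((72 * (W.Δ : Qb)) ^ 3 / 2) := by
            rw [map_div₀, map_div₀, map_pow, map_pow]
            exact (div_le_div_iff_of_pos_right h2).mpr (pow_le_pow_left₀ zero_le htw 3)
        _ = A.valuation (186624 * (W.Δ : Qb) ^ 3) := by congr 1; ring
        _ < 1 := by
          rw [map_mul, map_pow]
          exact lt_of_le_of_lt (mul_le_of_le_one_left zero_le (by exact_mod_cast hint 186624))
            (pow_lt_one₀ zero_le hD three_ne_zero)
  have hvalid : d.Valid A V :=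
    { crit_y := hy₀
      crit_x := by
        simp only [d]
        linear_combination hquad / 2 - x₀ / 2 * hB2 - hB4 / 2
      sum := by simp only [d]; ring
      prod := by simp only [d]; linear_combination -hsq / 4
      unit := by
        simp only [d]
        rw [show (-V.a₁ + δ) / 2 - (-V.a₁ - δ) / 2 = δ by ring, hδv]
      small := hsmall }
  refine ⟨d, hvalid, by simpa [d, hx₀] using ht1, fun σ hσ => ?_⟩
  have hfixr : σ r = r := by rw [hr, nodeApprox, map_div₀, map_intCast, map_intCast]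
  have hfix : σ x₀ = x₀ := by
    rw [hx₀, map_add, hfixr]
    congr 1
    refine huniq _ ?_ ((val_apply_eq hσ t).symm ▸ ht1)
    have := congrArg σ ht
    rw [map_add, map_add, map_mul, map_mul, map_pow, map_ofNat, map_zero] at this
    rwa [show σ β = β by rw [hβ, map_neg, map_div₀, map_intCast, map_intCast],
      show σ γ = γ by rw [hγ, map_div₀, map_neg, map_mul, map_ofNat, map_intCast, map_pow,
        map_intCast]] at this
  have hfa : σ V.a₁ = V.a₁ := by rw [ha₁, map_intCast]
  have hfa3 : σ V.a₃ = V.a₃ := by rw [ha₃, map_intCast]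
  have hfy : σ d.y₀ = d.y₀ := by
    simp only [d]
    rw [map_div₀, map_neg, map_add, map_mul, hfa, hfix, hfa3, map_ofNat]
  have hσδ : σ δ = δ ∨ σ δ = -δ := by
    apply sq_eq_sq_iff_eq_or_eq_neg.mp
    rw [← map_pow, hsq]
    simp only [map_add, map_mul, map_pow, map_ofNat, hfa, hfix]
    rw [ha₂, map_intCast]
  refine ⟨hfix, hfy, ?_⟩
  rcases hσδ with h | h
  · exact Or.inl ⟨by simp only [d, map_div₀, map_sub, map_neg, hfa, h, map_ofNat],
      by simp only [d, map_div₀, map_add, map_neg, hfa, h, map_ofNat]⟩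
  · refine Or.inr ⟨?_, ?_⟩ <;>
      simp only [d, map_div₀, map_add, map_sub, map_neg, hfa, h, map_ofNat] <;> ring

include hA hq hd hc in
/-- At most `(p² - 1)/2 - ord` roots of `preΨ' p` lie away from the node. -/
theorem card_roots_away {p : ℕ} (hp : p.Prime) (hpq : q ≠ p) (hp2 : p ≠ 2) {x₀ : Qb}
    (hx₀ : A.valuation (x₀ - nodeApprox W) < 1) :
    ((((W.map (Int.castRingHom ℚ))⁄Qb).preΨ' p).roots.toFinset.filter
        fun x => 1 ≤ A.valuation (x - x₀)).card + nodeOrder p ≤ (p ^ 2 - 1) / 2 := by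
  classical
  set P := W.preΨ' p with hP
  have hmap : ((W.map (Int.castRingHom ℚ))⁄Qb).preΨ' p = P.map (Int.castRingHom Qb) := by
    rw [hP, ← map_preΨ']
    congr 1
  rw [hmap]
  have hpZ : ((p : ℕ) : ℤ) ≠ 0 := Int.natCast_ne_zero.mpr hp.ne_zero
  have hdeg : (P.map (Int.castRingHom Qb)).natDegree = (p ^ 2 - 1) / 2 := by
    rw [natDegree_map_eq_of_injective Int.cast_injective, hP, W.natDegree_preΨ' hpZ,
      if_neg (by simpa [Nat.odd_iff, Nat.even_iff] using Nat.odd_iff.mp (hp.odd_of_ne_two hp2))]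
  have hlc : (P.map (Int.castRingHom Qb)).leadingCoeff = (p : Qb) := by
    rw [leadingCoeff_map_of_injective Int.cast_injective, hP, W.leadingCoeff_preΨ' hpZ,
      if_neg (by simpa [Nat.odd_iff, Nat.even_iff] using Nat.odd_iff.mp (hp.odd_of_ne_two hp2))]
    simp
  have hpv : A.valuation (p : Qb) = 1 := by
    have := val_intCast_eq hA hq (n := (p : ℤ)) (by
      rw [Int.natCast_dvd_natCast, Nat.prime_dvd_prime_iff_eq hq hp]; exact hpq)
    simpa using this
  set Q := P.map (Int.castRingHom Qb) with hQ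
  have hQ0 : Q ≠ 0 := fun h => by
    rw [h, leadingCoeff_zero] at hlc
    exact Nat.cast_ne_zero.mpr hp.ne_zero hlc.symm
  have hint : ∀ x ∈ Q.roots, x ∈ A := by
    intro x hx
    rw [← A.valuation_le_one_iff]
    by_contra hlt
    rw [not_le] at hlt
    have h0 : Q.eval x = 0 := (mem_roots hQ0).mp hx
    rw [eval_eq_sum_range, Finset.sum_range_succ] at h0
    have htop : A.valuation (Q.coeff Q.natDegree * x ^ Q.natDegree) =
        A.valuation x ^ Q.natDegree := by
      rw [coeff_natDegree, hlc, map_mul, map_pow, hpv, one_mul]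
    have hsmall : A.valuation (∑ i ∈ Finset.range Q.natDegree, Q.coeff i * x ^ i) <
        A.valuation x ^ Q.natDegree := by
      refine Valuation.map_sum_lt _ (pow_ne_zero _ (zero_lt_one.trans hlt).ne') fun i hi => ?_
      rw [map_mul, map_pow, hQ, coeff_map]
      exact lt_of_le_of_lt (mul_le_of_le_one_left zero_le (val_intCast_le A _))
        (pow_lt_pow_right₀ hlt (Finset.mem_range.mp hi))
    rw [eq_neg_of_add_eq_zero_left h0, Valuation.map_neg, htop] at hsmall
    exact lt_irrefl _ hsmall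
  -- transfer the splitting to `A`, then to the residue field
  set k := IsLocalRing.ResidueField A
  set ρ := IsLocalRing.residue A
  let rts : Multiset A := Q.roots.pmap (fun x hx => (⟨x, hx⟩ : A)) hint
  have hrts : rts.map A.subtype = Q.roots := by
    simp [rts, Multiset.map_pmap, Multiset.pmap_eq_map]
  have hfac : P.map (Int.castRingHom A) =
      C ((p : ℕ) : A) * (rts.map fun a => X - C a).prod := by
    apply Polynomial.map_injective A.subtype Subtype.val_injective
    rw [Polynomial.map_map, RingHom.eq_intCast' (A.subtype.comp (Int.castRingHom A)), ← hQ,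
      Polynomial.map_mul, map_C, Polynomial.map_multiset_prod, Multiset.map_map]
    conv_lhs => rw [(IsAlgClosed.splits Q).eq_prod_roots, hlc, ← hrts, Multiset.map_map]
    simp [Function.comp_def]
  have hcard : rts.card = (p ^ 2 - 1) / 2 := by
    rw [← hdeg, (IsAlgClosed.splits Q).natDegree_eq_card_roots, ← hrts, Multiset.card_map]
  have hpk : ((p : ℕ) : k) ≠ 0 := by
    rw [← map_natCast ρ, ne_eq, IsLocalRing.residue_eq_zero_iff, A.valuation_lt_one_iff]
    simpa using hpv.ge
  have hroots : (P.map (Int.castRingHom k)).roots = rts.map ρ := by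
    rw [show (Int.castRingHom k) = ρ.comp (Int.castRingHom A) from (RingHom.eq_intCast' _).symm,
      ← Polynomial.map_map, hfac, Polynomial.map_mul, map_C, map_natCast,
      Polynomial.map_multiset_prod, Multiset.map_map]
    rw [show (Polynomial.map ρ ∘ fun a : A => X - C a) = (fun a : k => X - C a) ∘ ρ by
      funext a; simp, ← Multiset.map_map, roots_C_mul _ hpk, roots_multiset_prod_X_sub_C]
  -- the node of the reduction
  set Wk := W.map (Int.castRingHom k) with hWk
  have hΔk : Wk.Δ = 0 := by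
    rw [hWk, map_Δ]
    show ((W.Δ : ℤ) : k) = 0
    rw [← map_intCast ρ, IsLocalRing.residue_eq_zero_iff, A.valuation_lt_one_iff]
    simpa using val_intCast_lt hA hd
  have hc4v : A.valuation (W.c₄ : Qb) = 1 := val_intCast_eq hA hq hc
  have hc4k : Wk.c₄ ≠ 0 := by
    rw [hWk, map_c₄]
    show ((W.c₄ : ℤ) : k) ≠ 0
    rw [← map_intCast ρ, ne_eq, IsLocalRing.residue_eq_zero_iff, A.valuation_lt_one_iff]
    simpa using hc4v.ge
  have hrA : nodeApprox W ∈ A := by
    rw [← A.valuation_le_one_iff, nodeApprox, map_div₀, hc4v, div_one]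
    exact val_intCast_le A _
  set rA : A := ⟨nodeApprox W, hrA⟩
  have hrk : ρ rA = nodeNum Wk / Wk.c₄ := by
    rw [eq_div_iff hc4k, hWk, map_c₄]
    have h1 : rA * (W.c₄ : A) = ((nodeNum W : ℤ) : A) := by
      apply Subtype.val_injective
      have h0 : (W.c₄ : Qb) ≠ 0 := fun h => by rw [h, map_zero] at hc4v; exact zero_ne_one hc4v
      simp [rA, nodeApprox, div_mul_cancel₀ _ h0]
    show ρ rA * ((W.c₄ : ℤ) : k) = nodeNum (W.map (Int.castRingHom k))
    rw [← map_intCast ρ, ← map_mul, h1, map_intCast]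
    simp [nodeNum, map_b₂, map_b₄, map_b₆]
  have hdvd : (X - C (ρ rA)) ^ nodeOrder p ∣ P.map (Int.castRingHom k) := by
    rw [hP, ← map_preΨ', hrk]
    exact pow_dvd_preΨ'_node (nodeAt_of_delta_eq_zero Wk hΔk hc4k) p
  have hne : P.map (Int.castRingHom k) ≠ 0 := by
    intro h0
    have := congrArg (fun f => f.coeff ((p ^ 2 - 1) / 2)) h0
    rw [coeff_map, coeff_zero, hP, ← Nat.mul_one p] at this
    have hc' := W.coeff_preΨ' p
    rw [if_neg (by simpa [Nat.odd_iff, Nat.even_iff] using Nat.odd_iff.mp (hp.odd_of_ne_two hp2)),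
      if_neg (by simpa [Nat.odd_iff, Nat.even_iff] using Nat.odd_iff.mp (hp.odd_of_ne_two hp2))] at hc'
    rw [Nat.mul_one] at this
    rw [hc'] at this
    exact hpk (by simpa using this)
  have hcount : nodeOrder p ≤ (rts.filter fun a => ρ a = ρ rA).card := by
    calc nodeOrder p ≤ (P.map (Int.castRingHom k)).rootMultiplicity (ρ rA) :=
          (le_rootMultiplicity_iff hne).mpr hdvd
      _ = (rts.map ρ).count (ρ rA) := by rw [← count_roots, hroots]
      _ = (rts.filter fun a => ρ a = ρ rA).card := by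
          rw [Multiset.count_map]; simp only [eq_comm]
  have hfilter : (Q.roots.toFinset.filter fun x => 1 ≤ A.valuation (x - x₀)).card ≤
      (rts.filter fun a => ¬ ρ a = ρ rA).card := by
    rw [← hrts, ← Multiset.toFinset_filter, Multiset.filter_map]
    refine (Multiset.toFinset_card_le _).trans ?_
    rw [Multiset.card_map]
    refine Multiset.card_le_card (Multiset.monotone_filter_right _ fun a ha hρ => ?_)
    rw [← sub_eq_zero, ← map_sub, IsLocalRing.residue_eq_zero_iff, A.valuation_lt_one_iff] at hρ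
    have := Valuation.map_sub_lt A.valuation hρ hx₀
    rw [show ((a - rA : A) : Qb) - (x₀ - nodeApprox W) = (a : Qb) - x₀ by simp [rA]] at this
    exact not_le.mpr this ha
  have := congrArg Multiset.card (Multiset.filter_add_not (fun a => ρ a = ρ rA) rts)
  rw [Multiset.card_add, hcard] at this
  omega

end Node

end Fermat.Agent.CondLevel
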