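import Mathlib.AlgebraicGeometry.EllipticCurve.Affine.Point
import Mathlib.RingTheory.Valuation.ValuationSubring
import Mathlib.Tactic.LinearCombination

/-!
A Weierstrass curve near a node: in coordinates centred at an exact critical point with tangent
slopes `α₁, α₂` the equation is `(Y - α₁X)(Y - α₂X) = X³ + c`. Two points near the node with
the same valuations of both factors differ by a point away from the node.
-/

set_option autoImplicit false

namespace Fermat.Agent.CondLevel

open WeierstrassCurve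

variable {K : Type*} [Field K] (A : ValuationSubring K) (V : WeierstrassCurve K)

/-- Centre and tangent slopes. -/
@[ext]
structure NodeData (K : Type*) where
  x₀ : K
  y₀ : K
  α₁ : K
  α₂ : K

/-- Interchange the slopes. -/
def NodeData.swap {L : Type*} (d : NodeData L) : NodeData L := ⟨d.x₀, d.y₀, d.α₂, d.α₁⟩

/-- The constant `c` of the centred equation. -/
def NodeData.cst (d : NodeData K) : K :=
  -(d.y₀ ^ 2 + V.a₁ * d.x₀ * d.y₀ + V.a₃ * d.y₀ -
    (d.x₀ ^ 3 + V.a₂ * d.x₀ ^ 2 + V.a₄ * d.x₀ + V.a₆))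

/-- Validity of node data. -/
structure NodeData.Valid (d : NodeData K) : Prop where
  crit_y : 2 * d.y₀ + V.a₁ * d.x₀ + V.a₃ = 0
  crit_x : 3 * d.x₀ ^ 2 + 2 * V.a₂ * d.x₀ + V.a₄ - V.a₁ * d.y₀ = 0
  sum : d.α₁ + d.α₂ = -V.a₁
  prod : d.α₁ * d.α₂ = -(3 * d.x₀ + V.a₂)
  unit : A.valuation (d.α₂ - d.α₁) = 1
  small : A.valuation (d.cst V) < 1

/-- `Y - α₁X`. -/
def NodeData.u (d : NodeData K) (x y : K) : K := (y - d.y₀) - d.α₁ * (x - d.x₀)

/-- `Y - α₂X`. -/
def NodeData.w (d : NodeData K) (x y : K) : K := (y - d.y₀) - d.α₂ * (x - d.x₀)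

/-- Points which are zero or away from the node. -/
def NodeData.OffNode (d : NodeData K) : V.toAffine.Point → Prop
  | .zero => True
  | .some x _ _ => 1 ≤ A.valuation (x - d.x₀)

variable {A V} {d : NodeData K}

theorem NodeData.Valid.swap (h : d.Valid A V) : d.swap.Valid A V where
  crit_y := h.crit_y
  crit_x := h.crit_x
  sum := by simp only [NodeData.swap]; rw [← h.sum]; ring
  prod := by simp only [NodeData.swap]; rw [← h.prod]; ring
  unit := by
    simp only [NodeData.swap]
    rw [← Valuation.map_neg, neg_sub, h.unit]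
  small := h.small

theorem NodeData.Valid.mul_eq (h : d.Valid A V) {x y : K} (he : V.toAffine.Equation x y) :
    d.u x y * d.w x y = (x - d.x₀) ^ 3 + d.cst V := by
  rw [Affine.equation_iff] at he
  simp only [NodeData.u, NodeData.w, NodeData.cst]
  linear_combination he - (x - d.x₀) * (y - d.y₀) * h.sum + (x - d.x₀) ^ 2 * h.prod -
    (y - d.y₀) * h.crit_y + (x - d.x₀) * h.crit_x

theorem NodeData.u_sub_w (d : NodeData K) (x y : K) :
    d.u x y - d.w x y = (d.α₂ - d.α₁) * (x - d.x₀) := by
  simp only [NodeData.u, NodeData.w]; ring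

theorem NodeData.Valid.val_X (h : d.Valid A V) (x y : K) :
    A.valuation (x - d.x₀) = A.valuation (d.u x y - d.w x y) := by
  rw [d.u_sub_w, map_mul, h.unit, one_mul]

theorem NodeData.Valid.uw_lt_one (h : d.Valid A V) {x y : K} (he : V.toAffine.Equation x y)
    (hx : A.valuation (x - d.x₀) < 1) :
    A.valuation (d.u x y) < 1 ∧ A.valuation (d.w x y) < 1 := by
  have hprod : A.valuation (d.u x y * d.w x y) < 1 := by
    rw [h.mul_eq he]
    refine Valuation.map_add_lt _ ?_ h.small
    rw [map_pow]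
    exact pow_lt_one₀ zero_le hx three_ne_zero
  rw [map_mul] at hprod
  have hd : A.valuation (d.u x y - d.w x y) < 1 := h.val_X x y ▸ hx
  rcases lt_or_ge (A.valuation (d.u x y)) 1 with hu | hu
  · refine ⟨hu, ?_⟩
    have := Valuation.map_sub_lt A.valuation hu hd
    rwa [sub_sub_cancel] at this
  · have hw : A.valuation (d.w x y) < 1 := by
      by_contra hw
      exact not_le.mpr hprod (one_le_mul hu (not_lt.mp hw))
    refine ⟨?_, hw⟩
    have := Valuation.map_add_lt A.valuation hd hw
    rwa [sub_add_cancel] at this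

/-- The key estimate on the slope. -/
theorem one_le_val_slope (h : d.Valid A V) {x x' y y' l : K}
    (hX : A.valuation (x - d.x₀) < 1) (he : V.toAffine.Equation x y)
    (hne : ¬ (d.u x y = 0 ∧ d.w x y = 0))
    (hu : A.valuation (d.u x y) = A.valuation (d.u x' y'))
    (hw : A.valuation (d.w x y) = A.valuation (d.w x' y'))
    (h1 : (l - d.α₁) * (x - x') = d.u x y + d.w x' y')
    (h3 : (x - d.x₀) ^ 2 + (x - d.x₀) * (x' - d.x₀) + (x' - d.x₀) ^ 2 =
      (l - d.α₁) * d.w x y - (l - d.α₂) * d.w x' y') :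
    1 ≤ A.valuation (l - d.α₁) := by
  by_contra hlt
  rw [not_le] at hlt
  obtain ⟨hu1, hw1⟩ := h.uw_lt_one he hX
  set a := A.valuation (d.u x y) with ha
  set b := A.valuation (d.w x y) with hb
  have hXle : A.valuation (x - d.x₀) ≤ max a b := by
    rw [h.val_X x y]; exact Valuation.map_sub _ _ _
  have hX'le : A.valuation (x' - d.x₀) ≤ max a b := by
    rw [h.val_X x' y', hu, hw]; exact Valuation.map_sub _ _ _
  by_cases hab : a = b
  · have ha0 : a ≠ 0 := fun h0 => hne ⟨(map_eq_zero A.valuation).mp h0,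
      (map_eq_zero A.valuation).mp (show b = 0 from hab ▸ h0)⟩
    have hS : A.valuation ((x - d.x₀) ^ 2 + (x - d.x₀) * (x' - d.x₀) + (x' - d.x₀) ^ 2) ≤
        a * a := by
      rw [← hab, max_self] at hXle hX'le
      refine Valuation.map_add_le _ (Valuation.map_add_le _ ?_ ?_) ?_
      · rw [sq, map_mul]; exact mul_le_mul' hXle hXle
      · rw [map_mul]; exact mul_le_mul' hXle hX'le
      · rw [sq, map_mul]; exact mul_le_mul' hX'le hX'le
    have hlt' : a * a < a := mul_lt_of_lt_one_left (zero_lt_iff.mpr ha0) hu1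
    have hl2 : A.valuation (l - d.α₂) = 1 := by
      rw [show l - d.α₂ = (l - d.α₁) - (d.α₂ - d.α₁) by ring,
        Valuation.map_sub_eq_of_lt_right _ (by rw [h.unit]; exact hlt), h.unit]
    have hrhs : A.valuation ((l - d.α₁) * d.w x y - (l - d.α₂) * d.w x' y') = a := by
      rw [Valuation.map_sub_eq_of_lt_right]
      · rw [map_mul, hl2, one_mul, ← hw, hab]
      · rw [map_mul, map_mul, hl2, one_mul, ← hw, ← hb, ← hab]
        exact mul_lt_of_lt_one_left (zero_lt_iff.mpr ha0) hlt
    rw [h3, hrhs] at hS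
    exact not_lt.mpr hS hlt'
  · have hnum : A.valuation (d.u x y + d.w x' y') = max a b := by
      rw [Valuation.map_add_of_distinct_val _ (by rw [← hw]; exact hab), ← hw]
    have hD : A.valuation (x - x') ≤ max a b := by
      rw [show x - x' = (x - d.x₀) - (x' - d.x₀) by ring]
      exact (Valuation.map_sub _ _ _).trans (max_le hXle hX'le)
    have hpos : 0 < max a b := by
      rcases lt_or_gt_of_ne hab with h' | h'
      · exact lt_of_lt_of_le (lt_of_le_of_lt zero_le h') (le_max_right _ _)
      · exact lt_of_lt_of_le (lt_of_le_of_lt zero_le h') (le_max_left _ _)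
    have heq := congrArg A.valuation h1
    rw [hnum, map_mul] at heq
    refine absurd heq (ne_of_lt ?_)
    calc A.valuation (l - d.α₁) * A.valuation (x - x') ≤ A.valuation (l - d.α₁) * max a b :=
          mul_le_mul_right hD _
      _ < max a b := mul_lt_of_lt_one_left hpos hlt

theorem NodeData.Valid.u_neg (h : d.Valid A V) (x y : K) :
    d.u x (V.toAffine.negY x y) = -d.w x y := by
  simp only [NodeData.u, NodeData.w, Affine.negY]
  linear_combination -h.crit_y - (x - d.x₀) * h.sum

theorem NodeData.Valid.w_neg (h : d.Valid A V) (x y : K) :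
    d.w x (V.toAffine.negY x y) = -d.u x y := by
  simp only [NodeData.u, NodeData.w, Affine.negY]
  linear_combination -h.crit_y - (x - d.x₀) * h.sum

variable [DecidableEq K]

/-- Two points near the node with the same pair of valuations differ by a point off the node. -/
theorem offNode_sub (h : d.Valid A V) {x x' y y' : K} (hP : V.toAffine.Nonsingular x y)
    (hQ : V.toAffine.Nonsingular x' y') (hX : A.valuation (x - d.x₀) < 1)
    (hX' : A.valuation (x' - d.x₀) < 1)
    (hu : A.valuation (d.u x y) = A.valuation (d.u x' y'))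
    (hw : A.valuation (d.w x y) = A.valuation (d.w x' y')) :
    d.OffNode A V (Affine.Point.some x y hP - Affine.Point.some x' y' hQ) := by
  rw [sub_eq_add_neg, Affine.Point.neg_some]
  by_cases hxy : x = x' ∧ y = y'
  · obtain ⟨rfl, rfl⟩ := hxy
    rw [Affine.Point.add_of_Y_eq rfl (Affine.negY_negY _ _).symm]
    exact trivial
  have hxy' : ¬ (x = x' ∧ y = V.toAffine.negY x' (V.toAffine.negY x' y')) := by
    rwa [Affine.negY_negY]
  rw [Affine.Point.add_some hxy']
  have hne : ¬ (d.u x y = 0 ∧ d.w x y = 0) := by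
    rintro ⟨h1, h2⟩
    have hx0 : x - d.x₀ = 0 := by
      have := d.u_sub_w x y
      rw [h1, h2, sub_zero] at this
      refine (mul_eq_zero.mp this.symm).resolve_left fun h0 => ?_
      have := h.unit
      rw [h0, map_zero] at this
      exact zero_ne_one this
    have hy0 : y - d.y₀ = 0 := by
      simpa [NodeData.u, hx0] using h1
    obtain ⟨-, hns⟩ := (Affine.nonsingular_iff' _ _).mp hP
    rw [sub_eq_zero.mp hx0, sub_eq_zero.mp hy0] at hns
    rcases hns with hns | hns
    · exact hns (by linear_combination -h.crit_x)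
    · exact hns (by linear_combination h.crit_y)
  set l := V.toAffine.slope x x' y (V.toAffine.negY x' y') with hl
  have key : (l - d.α₁) * (x - x') = d.u x y + d.w x' y' ∧
      (l - d.α₂) * (x - x') = d.w x y + d.u x' y' ∧
      (x - d.x₀) ^ 2 + (x - d.x₀) * (x' - d.x₀) + (x' - d.x₀) ^ 2 =
        (l - d.α₁) * d.w x y - (l - d.α₂) * d.w x' y' := by
    by_cases hx : x = x'
    · subst hx
      have hy : y = V.toAffine.negY x y' :=
        (Affine.Y_eq_of_X_eq hP.1 hQ.1 rfl).resolve_left fun e => hxy ⟨rfl, e⟩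
      have hyne : y ≠ V.toAffine.negY x (V.toAffine.negY x y') := fun e => hxy' ⟨rfl, e⟩
      have hy' : y' = V.toAffine.negY x y := by rw [hy, Affine.negY_negY]
      subst hy'
      rw [h.u_neg, h.w_neg, sub_self, mul_zero, mul_zero, add_neg_cancel, add_neg_cancel]
      refine ⟨rfl, rfl, ?_⟩
      rw [hl, Affine.negY_negY, Affine.slope_of_Y_ne rfl (by rwa [Affine.negY_negY] at hyne)]
      have hden : y - V.toAffine.negY x y ≠ 0 := sub_ne_zero.mpr fun e => hxy ⟨rfl, e⟩
      field_simp
      simp only [NodeData.u, NodeData.w, Affine.negY]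
      linear_combination (-(y - (-y - V.a₁ * x - V.a₃))) * h.crit_x +
        ((y - (-y - V.a₁ * x - V.a₃)) * (y - d.y₀) +
          (3 * x ^ 2 + 2 * V.a₂ * x + V.a₄ - V.a₁ * y) * (x - d.x₀)) * h.sum -
        2 * (y - (-y - V.a₁ * x - V.a₃)) * (x - d.x₀) * h.prod +
        (3 * x ^ 2 + 2 * V.a₂ * x + V.a₄ - V.a₁ * y) * h.crit_y
    · have hl' : l * (x - x') = y - V.toAffine.negY x' y' := by
        rw [hl, Affine.slope_of_X_ne hx, div_mul_cancel₀ _ (sub_ne_zero.mpr hx)]
      have h1 : (l - d.α₁) * (x - x') = d.u x y + d.w x' y' := by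
        simp only [NodeData.u, NodeData.w, Affine.negY] at *
        linear_combination hl' + h.crit_y + (x' - d.x₀) * h.sum
      have h2 : (l - d.α₂) * (x - x') = d.w x y + d.u x' y' := by
        simp only [NodeData.u, NodeData.w, Affine.negY] at *
        linear_combination hl' + h.crit_y + (x' - d.x₀) * h.sum
      refine ⟨h1, h2, mul_right_cancel₀ (sub_ne_zero.mpr hx) ?_⟩
      linear_combination h.mul_eq hQ.1 - h.mul_eq hP.1 - d.w x y * h1 + d.w x' y' * h2
  obtain ⟨h1, h2, h3⟩ := key
  have hA : 1 ≤ A.valuation (l - d.α₁) := one_le_val_slope h hX hP.1 hne hu hw h1 h3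
  have hB : 1 ≤ A.valuation (l - d.α₂) := by
    refine one_le_val_slope h.swap (x' := x') (y' := y') hX hP.1 (fun ⟨a, b⟩ => hne ⟨b, a⟩) hw hu h2 ?_
    show (x - d.x₀) ^ 2 + (x - d.x₀) * (x' - d.x₀) + (x' - d.x₀) ^ 2 =
      (l - d.α₂) * d.u x y - (l - d.α₁) * d.u x' y'
    rw [h3]
    have := d.u_sub_w x y
    have := d.u_sub_w x' y'
    grobner
  show 1 ≤ A.valuation (_ - d.x₀)
  have hR : V.toAffine.addX x x' l - d.x₀ =
      (l - d.α₁) * (l - d.α₂) - ((x - d.x₀) + (x' - d.x₀)) := by
    simp only [Affine.addX]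
    linear_combination l * h.sum - h.prod
  rw [hR, Valuation.map_sub_eq_of_lt_left, map_mul]
  · exact one_le_mul hA hB
  · rw [map_mul]
    exact lt_of_lt_of_le (Valuation.map_add_lt _ hX hX') (one_le_mul hA hB)

end Fermat.Agent.CondLevel
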